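import Mathlib
import Fermat.Prelude.Def_GaloisRep_Adic
import Fermat.Agent.GR.Adic.Defs
import Fermat.Agent.GR.Adic.Saturation
import Fermat.Agent.GR.Adic.TraceRigid
import Fermat.Agent.GR.Asm.Residual

/-!
# TOR / adic wiring, master theorem

`KSys p bad` : the part of the geometric core which is needed to *compute* the characteristic
polynomial of `ρ(g)` for an arbitrary `g ∈ G_ℚ`, for every `p`-adic Galois representation `ρ` whose
Frobenius characteristic polynomials are given by an eigensystem occurring in the lattice `L0`.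

`charpoly_eq_of_kSys` : if `g + d g⁻¹ = t` on all Kummer classes `κ m x` and `g = (·)^d` on
`μ_{p^∞}`, then `charpoly ρ(g) = X² - t X + d`.
-/

set_option autoImplicit false

namespace Fermat.Agent.TOR

open Fermat.Agent.GR.Adic IsLocalRing Module Polynomial
open Fermat.Agent.GR.Asm (frobenius_spec inertia_spec mem_of_pow_eq_one mul_mem_nonunits_of_mem
  eq_one_of_sub_one_mem_nonunits WeakChebotarev)

local notation "Qbar'" => AlgebraicClosure ℚ

/-! ### Roots of unity of `p`-power order -/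

theorem tor_eq_one_of_pow_pow_eq_one (A : ValuationSubring Qbar') {ℓ p : ℕ} (hp : p.Prime)
    (hℓ : ℓ.Prime) (hne : ℓ ≠ p) (hA : A.LiesOverPrime ℓ) (m : ℕ) {η : Qbar'}
    (hη : η ^ (p ^ m) = 1) (h : η - 1 ∈ A.nonunits) : η = 1 := by
  induction m generalizing η with
  | zero => simpa using hη
  | succ m ih =>
    have hmem : η ∈ A := mem_of_pow_eq_one A (pow_pos hp.pos _) hη
    have h1 : η ^ p = 1 := by
      apply ih
      · rw [← pow_mul, ← pow_succ']; exact hη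
      · have h2 : η ^ p - 1 = (η - 1) * ∑ i ∈ Finset.range p, η ^ i := by
          rw [mul_comm, geom_sum_mul]
        rw [h2]
        exact mul_mem_nonunits_of_mem A h (sum_mem fun i _ => pow_mem hmem i)
    exact eq_one_of_sub_one_mem_nonunits A hp hℓ hne hA h1 h

theorem tor_eq_of_sub_mem_nonunits (A : ValuationSubring Qbar') {ℓ p : ℕ} (hp : p.Prime)
    (hℓ : ℓ.Prime) (hne : ℓ ≠ p) (hA : A.LiesOverPrime ℓ) (m : ℕ) {a b : Qbar'}
    (ha : a ^ (p ^ m) = 1) (hb : b ^ (p ^ m) = 1) (h : a - b ∈ A.nonunits) : a = b := by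
  have hpos : 0 < p ^ m := pow_pos hp.pos _
  have hb0 : b ≠ 0 := by
    rintro rfl
    rw [zero_pow hpos.ne'] at hb
    exact zero_ne_one hb
  have hinv : b⁻¹ ∈ A := mem_of_pow_eq_one A hpos (by rw [inv_pow, hb, inv_one])
  have h2 : a * b⁻¹ = 1 := by
    apply tor_eq_one_of_pow_pow_eq_one A hp hℓ hne hA m
    · rw [mul_pow, ha, inv_pow, hb, inv_one, one_mul]
    · have h3 : a * b⁻¹ - 1 = (a - b) * b⁻¹ := by
        rw [sub_mul, mul_inv_cancel₀ hb0]
      rw [h3]
      exact mul_mem_nonunits_of_mem A h hinv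
  exact (mul_inv_eq_one₀ hb0).1 h2

/-- A Frobenius lift at `ℓ ≠ p` raises `p`-power roots of unity to the `ℓ`-th power. -/
theorem tor_frobenius_root (A : ValuationSubring Qbar') {ℓ p : ℕ} (hp : p.Prime)
    (hℓ : ℓ.Prime) (hne : ℓ ≠ p) (hA : A.LiesOverPrime ℓ) (σ : GQ) (hσ : A.IsFrobeniusAt σ ℓ)
    (m : ℕ) {ζ : Qbar'} (hζ : ζ ^ (p ^ m) = 1) : σ ζ = ζ ^ ℓ := by
  have hmem : ζ ∈ A := mem_of_pow_eq_one A (pow_pos hp.pos _) hζ
  apply tor_eq_of_sub_mem_nonunits A hp hℓ hne hA m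
  · rw [← map_pow, hζ, map_one]
  · rw [← pow_mul, mul_comm, pow_mul, hζ, one_pow]
  · exact (frobenius_spec A σ ℓ hσ).2 ζ hmem

theorem tor_frobenius_pow_root (A : ValuationSubring Qbar') {ℓ p : ℕ} (hp : p.Prime)
    (hℓ : ℓ.Prime) (hne : ℓ ≠ p) (hA : A.LiesOverPrime ℓ) (σ : GQ) (hσ : A.IsFrobeniusAt σ ℓ)
    (m : ℕ) {ζ : Qbar'} (hζ : ζ ^ (p ^ m) = 1) (j : ℕ) : (σ ^ j) ζ = ζ ^ (ℓ ^ j) := by
  induction j with
  | zero => simp
  | succ j ih =>
    rw [pow_succ', AlgEquiv.mul_apply, ih, map_pow,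
      tor_frobenius_root A hp hℓ hne hA σ hσ m hζ, ← pow_mul, ← pow_succ']

/-- Inertia at `ℓ ≠ p` fixes the `p`-power roots of unity. -/
theorem tor_inertia_root (A : ValuationSubring Qbar') {ℓ p : ℕ} (hp : p.Prime)
    (hℓ : ℓ.Prime) (hne : ℓ ≠ p) (hA : A.LiesOverPrime ℓ) (σ : GQ)
    (hσ : σ ∈ A.inertiaSubgroupIn ℚ) (m : ℕ) {ζ : Qbar'} (hζ : ζ ^ (p ^ m) = 1) : σ ζ = ζ := by
  have hmem : ζ ∈ A := mem_of_pow_eq_one A (pow_pos hp.pos _) hζ
  apply tor_eq_of_sub_mem_nonunits A hp hℓ hne hA m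
  · rw [← map_pow, hζ, map_one]
  · exact hζ
  · exact (inertia_spec A σ hσ).2 ζ hmem

/-! ### Rank two linear algebra, adic continuity of trace and determinant -/

section rank2

variable {R V : Type*} [CommRing R] [AddCommGroup V] [Module R V]

theorem tor_repr_mem_of_mem_smul_top {ι : Type*} (b : Basis ι R V) (I : Ideal R) {x : V}
    (hx : x ∈ I • (⊤ : Submodule R V)) (i : ι) : b.repr x i ∈ I := by
  induction hx using Submodule.smul_induction_on' with
  | smul a ha w _ =>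
    rw [map_smul, Finsupp.smul_apply, smul_eq_mul]
    exact I.mul_mem_right _ ha
  | add x _ y _ hx hy =>
    rw [map_add, Finsupp.add_apply]
    exact I.add_mem hx hy

theorem tor_charpoly_eq [Module.Free R V] [Module.Finite R V] (h2 : Module.finrank R V = 2)
    (f : Module.End R V) :
    LinearMap.charpoly f = X ^ 2 - C (LinearMap.trace R V f) * X + C (LinearMap.det f) := by
  classical
  rcases subsingleton_or_nontrivial R with hR | hR
  · exact Subsingleton.elim _ _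
  let b := Module.finBasisOfFinrankEq R V h2
  rw [← LinearMap.charpoly_toMatrix f b, Matrix.charpoly_fin_two,
    LinearMap.trace_eq_matrix_trace R b, ← LinearMap.det_toMatrix b]

theorem tor_trace_det_of_charpoly [Module.Free R V] [Module.Finite R V]
    (h2 : Module.finrank R V = 2) (f : Module.End R V) (a d : R)
    (hf : LinearMap.charpoly f = X ^ 2 - C a * X + C d) :
    LinearMap.trace R V f = a ∧ LinearMap.det f = d := by
  have h := tor_charpoly_eq h2 f
  rw [hf] at h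
  constructor
  · have := congrArg (fun P : R[X] => P.coeff 1) h
    simp [coeff_X_pow, coeff_C] at this
    exact this.symm
  · have := congrArg (fun P : R[X] => P.coeff 0) h
    simp [coeff_X_pow] at this
    exact this.symm

theorem tor_trace_sub_mem [Module.Free R V] [Module.Finite R V] (I : Ideal R)
    (f : Module.End R V) (hf : ∀ v, f v ∈ I • (⊤ : Submodule R V)) :
    LinearMap.trace R V f ∈ I := by
  classical
  let b := Module.Free.chooseBasis R V
  rw [LinearMap.trace_eq_matrix_trace R b, Matrix.trace]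
  refine I.sum_mem fun i _ => ?_
  rw [Matrix.diag_apply, LinearMap.toMatrix_apply]
  exact tor_repr_mem_of_mem_smul_top b I (hf _) i

theorem tor_det_sub_one_mem [Module.Free R V] [Module.Finite R V]
    (h2 : Module.finrank R V = 2) (I : Ideal R)
    (f : Module.End R V) (hf : ∀ v, f v - v ∈ I • (⊤ : Submodule R V)) :
    LinearMap.det f - 1 ∈ I := by
  classical
  rcases subsingleton_or_nontrivial R with hR | hR
  · rw [Subsingleton.elim (LinearMap.det f - 1) 0]; exact I.zero_mem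
  let b := Module.finBasisOfFinrankEq R V h2
  have hent : ∀ i j, LinearMap.toMatrix b b f i j - (if i = j then 1 else 0) ∈ I := by
    intro i j
    have := tor_repr_mem_of_mem_smul_top b I (hf (b j)) i
    rw [map_sub, Finsupp.sub_apply, Basis.repr_self, Finsupp.single_apply] at this
    rw [LinearMap.toMatrix_apply]
    simpa [eq_comm] using this
  rw [← LinearMap.det_toMatrix b, Matrix.det_fin_two]
  set M := LinearMap.toMatrix b b f
  have h00 : M 0 0 - 1 ∈ I := by simpa using hent 0 0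
  have h11 : M 1 1 - 1 ∈ I := by simpa using hent 1 1
  have h01 : M 0 1 ∈ I := by simpa using hent 0 1
  have : M 0 0 * M 1 1 - M 0 1 * M 1 0 - 1
      = (M 0 0 - 1) * M 1 1 + (M 1 1 - 1) - M 0 1 * M 1 0 := by ring
  rw [this]
  exact I.sub_mem (I.add_mem (I.mul_mem_right _ h00) h11) (I.mul_mem_right _ h01)

end rank2

section cont

variable {T : Type} [CommRing T] [IsLocalRing T]

/-- Adic continuity of trace and determinant. -/
theorem tor_exists_level (ρ : GaloisRepAdic T) (n : ℕ) :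
    ∃ L : IntermediateField ℚ Qbar', FiniteDimensional ℚ L ∧
      ∀ a b : GQ, (∀ x ∈ L, a x = b x) →
        LinearMap.trace T ρ.V (ρ.ρ a) - LinearMap.trace T ρ.V (ρ.ρ b) ∈ maximalIdeal T ^ n ∧
        LinearMap.det (ρ.ρ a) - LinearMap.det (ρ.ρ b) ∈ maximalIdeal T ^ n := by
  obtain ⟨L, hL, h⟩ := ρ.isAdicContinuous n
  refine ⟨L, hL, fun a b hab => ?_⟩
  have hc : ∀ x ∈ L, (b⁻¹ * a) x = x := by
    intro x hx
    rw [AlgEquiv.mul_apply, hab x hx]
    exact b.symm_apply_apply x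
  have ha : ρ.ρ a = ρ.ρ b * ρ.ρ (b⁻¹ * a) := by
    rw [← map_mul, mul_inv_cancel_left]
  constructor
  · have h1 : LinearMap.trace T ρ.V (ρ.ρ a) - LinearMap.trace T ρ.V (ρ.ρ b)
        = LinearMap.trace T ρ.V ((ρ.ρ (b⁻¹ * a) - 1) * ρ.ρ b) := by
      rw [sub_mul, one_mul, map_sub, LinearMap.trace_mul_comm, ← ha]
    rw [h1]
    apply tor_trace_sub_mem
    intro v
    exact h _ hc (ρ.ρ b v)
  · have h1 : LinearMap.det (ρ.ρ a) - LinearMap.det (ρ.ρ b)
        = LinearMap.det (ρ.ρ b) * (LinearMap.det (ρ.ρ (b⁻¹ * a)) - 1) := by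
      rw [ha, map_mul]; ring
    rw [h1]
    exact Ideal.mul_mem_left _ _ (tor_det_sub_one_mem ρ.finrank_eq _ _ (h _ hc))

theorem tor_eq_of_forall_sub_mem_pow [IsAdicComplete (maximalIdeal T) T] {x y : T}
    (h : ∀ n : ℕ, x - y ∈ maximalIdeal T ^ n) : x = y := by
  rw [← sub_eq_zero]
  apply IsHausdorff.haus (I := maximalIdeal T) inferInstance
  intro n
  rw [SModEq.zero, smul_eq_mul, Ideal.mul_top]
  exact h n

end cont

/-! ### The structure `KSys` -/

/-- The part of the geometric core used to compute characteristic polynomials: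
Kummer classes `W` with Galois action and Hecke operators satisfying the Eichler--Shimura relation
outside `bad`, and a lattice `L0` with `L0 / p ^ m ↪ W` Hecke-equivariantly. -/
structure KSys (p : ℕ) (bad : Set ℕ) : Type 1 where
  W : Type
  [instW : AddCommGroup W]
  act : GQ →* Module.End ℤ W
  smooth : ∀ x : W, ∃ L : IntermediateField ℚ (AlgebraicClosure ℚ), FiniteDimensional ℚ L ∧
    ∀ σ : GQ, FixesLevel L σ → act σ x = x
  T : ℕ → Module.End ℤ W
  frob : ∀ ℓ : ℕ, ℓ.Prime → ℓ ∉ bad → ∀ A : ValuationSubring (AlgebraicClosure ℚ),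
    A.LiesOverPrime ℓ → ∀ σ : GQ, A.IsFrobeniusAt σ ℓ →
      act σ * act σ - T ℓ * act σ + (ℓ : Module.End ℤ W) = 0
  L0 : Type
  [instL0 : AddCommGroup L0]
  [instL0free : Module.Free ℤ L0]
  [instL0fin : Module.Finite ℤ L0]
  T0 : ℕ → Module.End ℤ L0
  κ : ℕ → L0 →ₗ[ℤ] W
  κ_ker : ∀ (m : ℕ) (x : L0), κ m x = 0 ↔ ∃ y : L0, x = (p ^ m) • y
  κ_T : ∀ ℓ : ℕ, ℓ.Prime → ℓ ∉ bad → ∀ (m : ℕ) (x : L0), κ m (T0 ℓ x) = T ℓ (κ m x)

attribute [instance] KSys.instW KSys.instL0 KSys.instL0free KSys.instL0fin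

namespace KSys

variable {p : ℕ} {bad : Set ℕ} (X : KSys p bad)

theorem pow_smul_kappa (m : ℕ) (x : X.L0) : (p ^ m) • X.κ m x = 0 := by
  rw [← map_nsmul]
  exact (X.κ_ker m _).2 ⟨x, rfl⟩

theorem exists_level (s : Set X.W) (hs : s.Finite) :
    ∃ L : IntermediateField ℚ Qbar', FiniteDimensional ℚ L ∧
      ∀ σ : GQ, FixesLevel L σ → ∀ x ∈ s, X.act σ x = x := by
  induction s, hs using Set.Finite.induction_on with
  | empty => exact ⟨⊥, inferInstance, fun _ _ _ h => h.elim⟩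
  | @insert a s _ _ ih =>
    obtain ⟨L, hL, h⟩ := ih
    obtain ⟨L', hL', h'⟩ := X.smooth a
    refine ⟨L ⊔ L', IntermediateField.finiteDimensional_sup L L', fun σ hσ x hx => ?_⟩
    rcases hx with rfl | hx
    · exact h' σ (fun y hy => hσ y ((le_sup_right : L' ≤ L ⊔ L') hy))
    · exact h σ (fun y hy => hσ y ((le_sup_left : L ≤ L ⊔ L') hy)) x hx

/-- A common level for all `f (κ m x)`, `x ∈ L0`, `f` additive. -/
theorem exists_level_kappa (m : ℕ) (f : Module.End ℤ X.W) :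
    ∃ L : IntermediateField ℚ Qbar', FiniteDimensional ℚ L ∧
      ∀ σ : GQ, FixesLevel L σ → ∀ x : X.L0, X.act σ (f (X.κ m x)) = f (X.κ m x) := by
  classical
  let b := Module.Free.chooseBasis ℤ X.L0
  obtain ⟨L, hL, h⟩ := X.exists_level (Set.range fun i => f (X.κ m (b i))) (Set.finite_range _)
  refine ⟨L, hL, fun σ hσ x => ?_⟩
  have hx : x = ∑ i, b.repr x i • b i := (b.sum_repr x).symm
  rw [hx]
  simp only [map_sum, map_zsmul]
  exact Finset.sum_congr rfl fun i _ => by rw [h σ hσ _ ⟨i, rfl⟩]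

theorem kappa_lucas {ℓ : ℕ} (hℓ : ℓ.Prime) (hbad : ℓ ∉ bad) (m j : ℕ) (x : X.L0) :
    X.κ m (lucasSeq (X.T0 ℓ) (ℓ : Module.End ℤ X.L0) j x)
      = lucasSeq (X.T ℓ) (ℓ : Module.End ℤ X.W) j (X.κ m x) := by
  induction j using Nat.strong_induction_on generalizing x with
  | _ j ih =>
    match j with
    | 0 =>
      simp only [lucasSeq_zero]
      have h1 : ((2 : Module.End ℤ X.L0)) x = (2 : ℕ) • x := by
        rw [show (2 : Module.End ℤ X.L0) = ((2 : ℕ) : Module.End ℤ X.L0) by norm_cast,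
          Module.End.natCast_apply]
      have h2 : ((2 : Module.End ℤ X.W)) (X.κ m x) = (2 : ℕ) • X.κ m x := by
        rw [show (2 : Module.End ℤ X.W) = ((2 : ℕ) : Module.End ℤ X.W) by norm_cast,
          Module.End.natCast_apply]
      rw [h1, h2, map_nsmul]
    | 1 => simp only [lucasSeq_one]; exact X.κ_T ℓ hℓ hbad m x
    | (i + 2) =>
      rw [lucasSeq_add_two, lucasSeq_add_two, LinearMap.sub_apply, LinearMap.sub_apply,
        Module.End.mul_apply, Module.End.mul_apply, Module.End.mul_apply, Module.End.mul_apply,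
        map_sub, X.κ_T ℓ hℓ hbad, ih (i + 1) (by omega), Module.End.natCast_apply,
        Module.End.natCast_apply, map_nsmul, ih i (by omega)]

/-- The Eichler--Shimura relation for powers of a Frobenius. -/
theorem lucas_eq {ℓ : ℕ} (hℓ : ℓ.Prime) (hbad : ℓ ∉ bad) (A : ValuationSubring Qbar')
    (hA : A.LiesOverPrime ℓ) (σ : GQ) (hσ : A.IsFrobeniusAt σ ℓ) (j : ℕ) (w : X.W) :
    lucasSeq (X.T ℓ) (ℓ : Module.End ℤ X.W) j w
      = X.act (σ ^ j) w + (ℓ ^ j) • X.act (σ ^ j)⁻¹ w := by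
  have h1 : X.act σ * X.act σ⁻¹ = 1 := by rw [← map_mul, mul_inv_cancel, map_one]
  have h2 : X.act σ⁻¹ * X.act σ = 1 := by rw [← map_mul, inv_mul_cancel, map_one]
  have hc : Commute (X.act σ) ((ℓ : Module.End ℤ X.W) * X.act σ⁻¹) := by
    have hn : Commute (X.act σ) (ℓ : Module.End ℤ X.W) := (Nat.cast_commute ℓ _).symm
    exact hn.mul_right (by rw [Commute, SemiconjBy, h1, h2])
  have hsum : X.act σ + (ℓ : Module.End ℤ X.W) * X.act σ⁻¹ = X.T ℓ := by
    have h := X.frob ℓ hℓ hbad A hA σ hσ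
    have h3 := congrArg (fun f => f * X.act σ⁻¹) h
    simp only [add_mul, sub_mul, mul_assoc, h1, mul_one, zero_mul] at h3
    rw [← sub_eq_zero, ← h3]
    abel
  have hprod : X.act σ * ((ℓ : Module.End ℤ X.W) * X.act σ⁻¹) = (ℓ : Module.End ℤ X.W) := by
    rw [← mul_assoc, ((Nat.cast_commute ℓ (X.act σ)).symm).eq, mul_assoc, h1, mul_one]
  have h := pow_add_pow_eq_lucasSeq hc j
  rw [hsum, hprod] at h
  rw [← h, LinearMap.add_apply, ((Nat.cast_commute ℓ (X.act σ⁻¹))).mul_pow, ← map_pow, ← map_pow,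
    Module.End.mul_apply, ← Nat.cast_pow, Module.End.natCast_apply, inv_pow]

end KSys

theorem tor_nsmul_eq_of_modEq {W : Type*} [AddCommGroup W] {a b M : ℕ} (h : a ≡ b [MOD M])
    {y : W} (hy : M • y = 0) : a • y = b • y := by
  have h1 : (M : ℤ) ∣ (b : ℤ) - a := (Nat.modEq_iff_dvd).1 h
  obtain ⟨k, hk⟩ := h1
  have h2 : ((b : ℤ) - a) • y = 0 := by
    rw [hk, mul_comm, mul_smul, natCast_zsmul, hy, smul_zero]
  rw [sub_smul, natCast_zsmul, natCast_zsmul, sub_eq_zero] at h2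
  exact h2.symm

/-- **Master theorem of the adic wiring.**  Let `ρ` be a `p`-adic representation whose Frobenius
characteristic polynomials outside `bad` are `X² - ψ(T_ℓ) X + ℓ`, where the eigensystem `ψ` factors
through the ring generated by the Hecke operators on the lattice `L0` of a `KSys`.
If `g ∈ G_ℚ` acts as `ζ ↦ ζ ^ d` on `μ_{p^∞}` and satisfies `g + d g⁻¹ = t` on the Kummer classes
`κ m x`, then `charpoly ρ(g) = X² - t X + d`. -/
theorem charpoly_eq_of_kSys (hcheb : WeakChebotarev) {p : ℕ} (hp : p.Prime) {bad : Finset ℕ}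
    (hpbad : p ∈ bad) (K : KSys p (↑bad : Set ℕ))
    {𝕋 : Type*} [CommRing 𝕋] (ι : 𝕋 →+* Module.End ℤ K.L0) (τ : ℕ → 𝕋)
    (hτ : ∀ ℓ : ℕ, ℓ.Prime → ℓ ∉ bad → ι (τ ℓ) = K.T0 ℓ)
    {R : Type} [CommRing R] [IsLocalRing R] [IsAdicComplete (maximalIdeal R) R]
    (hpR : (p : R) ∈ maximalIdeal R)
    (ψ : 𝕋 →+* R) (hker : ∀ t : 𝕋, ι t = 0 → ψ t = 0)
    (ρ : GaloisRepAdic R)
    (hρ : ∀ ℓ : ℕ, ℓ.Prime → ℓ ∉ bad → ∀ A : ValuationSubring Qbar', A.LiesOverPrime ℓ →
      ∀ σ : GQ, A.IsFrobeniusAt σ ℓ →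
        LinearMap.charpoly (ρ.ρ σ) = X ^ 2 - C (ψ (τ ℓ)) * X + C (ℓ : R))
    (g : GQ) (d : ℕ) (t : ℤ)
    (hgζ : ∀ (m : ℕ) (ζ : Qbar'), ζ ^ (p ^ m) = 1 → g ζ = ζ ^ d)
    (hg : ∀ (m : ℕ) (x : K.L0),
      K.act g (K.κ m x) + d • K.act g⁻¹ (K.κ m x) = t • K.κ m x) :
    LinearMap.charpoly (ρ.ρ g) = X ^ 2 - C (t : R) * X + C (d : R) := by
  classical
  have key : ∀ n : ℕ, LinearMap.trace R ρ.V (ρ.ρ g) - (t : R) ∈ maximalIdeal R ^ n ∧
      LinearMap.det (ρ.ρ g) - (d : R) ∈ maximalIdeal R ^ n := by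
    intro n
    let TT : Submodule ℤ (Module.End ℤ K.L0) := LinearMap.range ι.toAddMonoidHom.toIntLinearMap
    obtain ⟨c, hc⟩ := exists_saturation TT p
    set m := n + c with hm
    have hpos : 0 < p ^ m := pow_pos hp.pos _
    obtain ⟨L₁, hL₁, h₁⟩ := tor_exists_level ρ n
    obtain ⟨L₂, hL₂, h₂⟩ := K.exists_level_kappa m 1
    obtain ⟨L₃, hL₃, h₃⟩ := K.exists_level_kappa m (K.act g⁻¹)
    have : NeZero ((p ^ m : ℕ) : Qbar') := ⟨Nat.cast_ne_zero.mpr hpos.ne'⟩
    obtain ⟨ζ, hζ⟩ := HasEnoughRootsOfUnity.exists_primitiveRoot Qbar' (p ^ m)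
    have hint : IsIntegral ℚ ζ := (hζ.isIntegral hpos).tower_top
    have hL₄ : FiniteDimensional ℚ (IntermediateField.adjoin ℚ {ζ}) :=
      IntermediateField.adjoin.finiteDimensional hint
    set L₄ := IntermediateField.adjoin ℚ {ζ} with hL₄def
    have hL12 : FiniteDimensional ℚ (L₁ ⊔ L₂ : IntermediateField ℚ Qbar') :=
      IntermediateField.finiteDimensional_sup L₁ L₂
    have hL34 : FiniteDimensional ℚ (L₃ ⊔ L₄ : IntermediateField ℚ Qbar') :=
      IntermediateField.finiteDimensional_sup L₃ L₄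
    have hL : FiniteDimensional ℚ ((L₁ ⊔ L₂) ⊔ (L₃ ⊔ L₄) : IntermediateField ℚ Qbar') :=
      IntermediateField.finiteDimensional_sup _ _
    have le₁ : L₁ ≤ (L₁ ⊔ L₂) ⊔ (L₃ ⊔ L₄) := le_sup_left.trans le_sup_left
    have le₂ : L₂ ≤ (L₁ ⊔ L₂) ⊔ (L₃ ⊔ L₄) := le_sup_right.trans le_sup_left
    have le₃ : L₃ ≤ (L₁ ⊔ L₂) ⊔ (L₃ ⊔ L₄) := le_sup_left.trans le_sup_right
    have le₄ : L₄ ≤ (L₁ ⊔ L₂) ⊔ (L₃ ⊔ L₄) := le_sup_right.trans le_sup_right
    obtain ⟨ℓ, A, σ, j, hℓ, hℓT, hA, hσ, hσg⟩ := hcheb _ hL bad g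
    have hℓbad : ℓ ∉ (↑bad : Set ℕ) := by simpa using hℓT
    have hℓp : ℓ ≠ p := fun h => hℓT (h ▸ hpbad)
    -- the cyclotomic congruence
    have hcong : ℓ ^ j ≡ d [MOD p ^ m] := by
      have e1 : ζ ^ (ℓ ^ j) = g ζ := by
        rw [← tor_frobenius_pow_root A hp hℓ hℓp hA σ hσ m hζ.pow_eq_one j]
        exact hσg ζ (le₄ (IntermediateField.mem_adjoin_simple_self ℚ ζ))
      have e2 : ζ ^ d = g ζ := (hgζ m ζ hζ.pow_eq_one).symm
      have hfin : IsOfFinOrder ζ := isOfFinOrder_iff_pow_eq_one.mpr ⟨p ^ m, hpos, hζ.pow_eq_one⟩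
      have := hfin.pow_eq_pow_iff_modEq.mp (e1.trans e2.symm)
      rwa [← hζ.eq_orderOf] at this
    -- `g⁻¹ σ ^ j` fixes the level
    have hfix : ∀ x ∈ (L₁ ⊔ L₂) ⊔ (L₃ ⊔ L₄), (g⁻¹ * σ ^ j) x = x := by
      intro x hx
      rw [AlgEquiv.mul_apply, hσg x hx]
      exact g.symm_apply_apply x
    have hsplit : ∀ w : K.W, K.act (σ ^ j) w = K.act g (K.act (g⁻¹ * σ ^ j) w) := by
      intro w
      rw [← Module.End.mul_apply, ← map_mul, mul_inv_cancel_left]
    have e1 : ∀ x : K.L0, K.act (σ ^ j) (K.κ m x) = K.act g (K.κ m x) := by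
      intro x
      rw [hsplit]
      have := h₂ (g⁻¹ * σ ^ j) (fun y hy => hfix y (le₂ hy)) x
      rw [Module.End.one_apply] at this
      rw [this]
    have e2 : ∀ x : K.L0, K.act (σ ^ j)⁻¹ (K.κ m x) = K.act g⁻¹ (K.κ m x) := by
      intro x
      have h5 := h₃ (g⁻¹ * σ ^ j) (fun y hy => hfix y (le₃ hy)) x
      have h6 : K.act (σ ^ j) (K.act g⁻¹ (K.κ m x)) = K.κ m x := by
        rw [hsplit, h5, ← Module.End.mul_apply, ← map_mul, mul_inv_cancel, map_one,
          Module.End.one_apply]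
      conv_lhs => rw [← h6]
      rw [← Module.End.mul_apply, ← map_mul, inv_mul_cancel, map_one, Module.End.one_apply]
    -- the Hecke element
    set D : 𝕋 := lucasSeq (τ ℓ) (ℓ : 𝕋) j - (t : 𝕋) with hD
    have hιD : ι D = lucasSeq (K.T0 ℓ) (ℓ : Module.End ℤ K.L0) j - (t : Module.End ℤ K.L0) := by
      rw [hD, map_sub, map_lucasSeq, hτ ℓ hℓ hℓT, map_natCast, map_intCast]
    have hkill : ∀ x : K.L0, K.κ m (ι D x) = 0 := by
      intro x
      have hw : (p ^ m) • K.act g⁻¹ (K.κ m x) = 0 := by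
        rw [← map_nsmul, K.pow_smul_kappa, map_zero]
      rw [hιD, LinearMap.sub_apply, map_sub, K.kappa_lucas hℓ hℓbad,
        K.lucas_eq hℓ hℓbad A hA σ hσ, e1, e2, tor_nsmul_eq_of_modEq hcong hw, hg,
        Module.End.intCast_apply, map_zsmul, sub_self]
    have hdiv : ∀ x : K.L0, ∃ y : K.L0, ι D x = ((p : ℤ) ^ (n + c)) • y := by
      intro x
      obtain ⟨y, hy⟩ := (K.κ_ker m _).1 (hkill x)
      refine ⟨y, ?_⟩
      rw [hy, ← hm, ← Nat.cast_pow, natCast_zsmul]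
    obtain ⟨D', ⟨δ, hδ⟩, hD'⟩ := hc n (ι D) ⟨D, rfl⟩ hdiv
    have hδ' : ι δ = D' := hδ
    have hψD : ψ D = (p : R) ^ n * ψ δ := by
      have h7 : ι (D - (p : 𝕋) ^ n * δ) = 0 := by
        rw [map_sub, map_mul, map_pow, map_natCast, hδ', hD', sub_eq_zero, ← Nat.cast_pow,
          ← Nat.cast_pow, natCast_zsmul, nsmul_eq_mul]
      have h8 := hker _ h7
      rw [map_sub, map_mul, map_pow, map_natCast, sub_eq_zero] at h8
      exact h8
    have hψDmem : ψ D ∈ maximalIdeal R ^ n := by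
      rw [hψD]
      exact Ideal.mul_mem_right _ _ (Ideal.pow_mem_pow hpR n)
    obtain ⟨t1, t2⟩ := h₁ g (σ ^ j) (fun x hx => (hσg x (le₁ hx)).symm)
    have hch := hρ ℓ hℓ hℓT A hA σ hσ
    constructor
    · have htr : LinearMap.trace R ρ.V (ρ.ρ (σ ^ j)) = ψ D + (t : R) := by
        rw [map_pow, trace_pow_eq_lucasSeq ρ.finrank_eq _ _ _ hch, hD, map_sub, map_lucasSeq,
          map_natCast, map_intCast, sub_add_cancel]
      rw [htr] at t1
      have := Ideal.add_mem _ t1 hψDmem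
      convert this using 1
      ring
    · have hdet : LinearMap.det (ρ.ρ (σ ^ j)) = (ℓ : R) ^ j := by
        rw [map_pow, map_pow, (tor_trace_det_of_charpoly ρ.finrank_eq _ _ _ hch).2]
      rw [hdet] at t2
      have h9 : (ℓ : R) ^ j - (d : R) ∈ maximalIdeal R ^ n := by
        obtain ⟨k, hk⟩ := (Nat.modEq_iff_dvd).1 hcong
        have h10 : (ℓ : R) ^ j - (d : R) = (p : R) ^ n * ((p : R) ^ c * (-(k : R))) := by
          have := congrArg (fun z : ℤ => (z : R)) hk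
          push_cast at this
          rw [hm, pow_add] at this
          linear_combination -this
        rw [h10]
        exact Ideal.mul_mem_right _ _ (Ideal.pow_mem_pow hpR n)
      have := Ideal.add_mem _ t2 h9
      convert this using 1
      ring
  rw [tor_charpoly_eq ρ.finrank_eq, tor_eq_of_forall_sub_mem_pow fun n => (key n).1,
    tor_eq_of_forall_sub_mem_pow fun n => (key n).2]

end Fermat.Agent.TOR
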