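import Mathlib
import Fermat.Agent.TOR.AdicMaster

/-!
# TOR / adic wiring, polynomial version of the master theorem

`exists_hecke_approx` : for every `n` the operator `g + d g⁻¹` on the Kummer classes `κ m x` is
induced by a Hecke element `D₀` with `ψ D₀ ≡ tr ρ(g) mod 𝔪 ^ n`.

`aeval_trace_eq_zero_of_kSys` : if `F(g + d g⁻¹) = 0` on all `κ m x` (`F ∈ ℤ[X]`), then
`F(tr ρ(g)) = 0` and `det ρ(g) = d`.
-/

set_option autoImplicit false

namespace Fermat.Agent.TOR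

open Fermat.Agent.GR.Adic IsLocalRing Module Polynomial
open Fermat.Agent.GR.Asm (WeakChebotarev)

local notation "Qbar'" => AlgebraicClosure ℚ

/-- Approximation of `g + d g⁻¹` by Hecke operators. -/
theorem exists_hecke_approx (hcheb : WeakChebotarev) {p : ℕ} (hp : p.Prime) {bad : Finset ℕ}
    (hpbad : p ∈ bad) (K : KSys p (↑bad : Set ℕ))
    {𝕋 : Type*} [CommRing 𝕋] (ι : 𝕋 →+* Module.End ℤ K.L0) (τ : ℕ → 𝕋)
    (hτ : ∀ ℓ : ℕ, ℓ.Prime → ℓ ∉ bad → ι (τ ℓ) = K.T0 ℓ)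
    {R : Type} [CommRing R] [IsLocalRing R]
    (hpR : (p : R) ∈ maximalIdeal R)
    (ψ : 𝕋 →+* R) (hker : ∀ t : 𝕋, ι t = 0 → ψ t = 0)
    (ρ : GaloisRepAdic R)
    (hρ : ∀ ℓ : ℕ, ℓ.Prime → ℓ ∉ bad → ∀ A : ValuationSubring Qbar', A.LiesOverPrime ℓ →
      ∀ σ : GQ, A.IsFrobeniusAt σ ℓ →
        LinearMap.charpoly (ρ.ρ σ) = X ^ 2 - C (ψ (τ ℓ)) * X + C (ℓ : R))
    (g : GQ) (d : ℕ)
    (hgζ : ∀ (m : ℕ) (ζ : Qbar'), ζ ^ (p ^ m) = 1 → g ζ = ζ ^ d) (n : ℕ) :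
    ∃ (m : ℕ) (D₀ : 𝕋),
      LinearMap.trace R ρ.V (ρ.ρ g) - ψ D₀ ∈ maximalIdeal R ^ n ∧
      LinearMap.det (ρ.ρ g) - (d : R) ∈ maximalIdeal R ^ n ∧
      (∀ x : K.L0, K.κ m (ι D₀ x) = K.act g (K.κ m x) + d • K.act g⁻¹ (K.κ m x)) ∧
      (∀ D : 𝕋, (∀ x : K.L0, K.κ m (ι D x) = 0) → ψ D ∈ maximalIdeal R ^ n) := by
  classical
  let TT : Submodule ℤ (Module.End ℤ K.L0) := LinearMap.range ι.toAddMonoidHom.toIntLinearMap
  obtain ⟨c, hc⟩ := exists_saturation TT p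
  set m := n + c with hm
  have hpos : 0 < p ^ m := pow_pos hp.pos _
  obtain ⟨L₁, hL₁, h₁⟩ := tor_exists_level ρ n
  obtain ⟨L₂, hL₂, h₂⟩ := K.exists_level_kappa m 1
  obtain ⟨L₃, hL₃, h₃⟩ := K.exists_level_kappa m (K.act g⁻¹)
  have : NeZero ((p ^ m : ℕ) : Qbar') := ⟨Nat.cast_ne_zero.mpr hpos.ne'⟩
  obtain ⟨ζ, hζ⟩ := HasEnoughRootsOfUnity.exists_primitiveRoot Qbar' (p ^ m)
  have hint : IsIntegral ℚ ζ := (hζ.isIntegral hpos).tower_top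
  have hL₄ : FiniteDimensional ℚ (IntermediateField.adjoin ℚ {ζ}) :=
    IntermediateField.adjoin.finiteDimensional hint
  set L₄ := IntermediateField.adjoin ℚ {ζ} with hL₄def
  have hL12 : FiniteDimensional ℚ (L₁ ⊔ L₂ : IntermediateField ℚ Qbar') :=
    IntermediateField.finiteDimensional_sup L₁ L₂
  have hL34 : FiniteDimensional ℚ (L₃ ⊔ L₄ : IntermediateField ℚ Qbar') :=
    IntermediateField.finiteDimensional_sup L₃ L₄
  have hL : FiniteDimensional ℚ ((L₁ ⊔ L₂) ⊔ (L₃ ⊔ L₄) : IntermediateField ℚ Qbar') :=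
    IntermediateField.finiteDimensional_sup _ _
  have le₁ : L₁ ≤ (L₁ ⊔ L₂) ⊔ (L₃ ⊔ L₄) := le_sup_left.trans le_sup_left
  have le₂ : L₂ ≤ (L₁ ⊔ L₂) ⊔ (L₃ ⊔ L₄) := le_sup_right.trans le_sup_left
  have le₃ : L₃ ≤ (L₁ ⊔ L₂) ⊔ (L₃ ⊔ L₄) := le_sup_left.trans le_sup_right
  have le₄ : L₄ ≤ (L₁ ⊔ L₂) ⊔ (L₃ ⊔ L₄) := le_sup_right.trans le_sup_right
  obtain ⟨ℓ, A, σ, j, hℓ, hℓT, hA, hσ, hσg⟩ := hcheb _ hL bad g
  have hℓbad : ℓ ∉ (↑bad : Set ℕ) := by simpa using hℓT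
  have hℓp : ℓ ≠ p := fun h => hℓT (h ▸ hpbad)
  have hcong : ℓ ^ j ≡ d [MOD p ^ m] := by
    have e1 : ζ ^ (ℓ ^ j) = g ζ := by
      rw [← tor_frobenius_pow_root A hp hℓ hℓp hA σ hσ m hζ.pow_eq_one j]
      exact hσg ζ (le₄ (IntermediateField.mem_adjoin_simple_self ℚ ζ))
    have e2 : ζ ^ d = g ζ := (hgζ m ζ hζ.pow_eq_one).symm
    have hfin : IsOfFinOrder ζ := isOfFinOrder_iff_pow_eq_one.mpr ⟨p ^ m, hpos, hζ.pow_eq_one⟩
    have := hfin.pow_eq_pow_iff_modEq.mp (e1.trans e2.symm)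
    rwa [← hζ.eq_orderOf] at this
  have hfix : ∀ x ∈ (L₁ ⊔ L₂) ⊔ (L₃ ⊔ L₄), (g⁻¹ * σ ^ j) x = x := by
    intro x hx
    rw [AlgEquiv.mul_apply, hσg x hx]
    exact g.symm_apply_apply x
  have hsplit : ∀ w : K.W, K.act (σ ^ j) w = K.act g (K.act (g⁻¹ * σ ^ j) w) := by
    intro w
    rw [← Module.End.mul_apply, ← map_mul, mul_inv_cancel_left]
  have e1 : ∀ x : K.L0, K.act (σ ^ j) (K.κ m x) = K.act g (K.κ m x) := by
    intro x
    rw [hsplit]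
    have := h₂ (g⁻¹ * σ ^ j) (fun y hy => hfix y (le₂ hy)) x
    rw [Module.End.one_apply] at this
    rw [this]
  have e2 : ∀ x : K.L0, K.act (σ ^ j)⁻¹ (K.κ m x) = K.act g⁻¹ (K.κ m x) := by
    intro x
    have h5 := h₃ (g⁻¹ * σ ^ j) (fun y hy => hfix y (le₃ hy)) x
    have h6 : K.act (σ ^ j) (K.act g⁻¹ (K.κ m x)) = K.κ m x := by
      rw [hsplit, h5, ← Module.End.mul_apply, ← map_mul, mul_inv_cancel, map_one,
        Module.End.one_apply]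
    conv_lhs => rw [← h6]
    rw [← Module.End.mul_apply, ← map_mul, inv_mul_cancel, map_one, Module.End.one_apply]
  obtain ⟨t1, t2⟩ := h₁ g (σ ^ j) (fun x hx => (hσg x (le₁ hx)).symm)
  have hch := hρ ℓ hℓ hℓT A hA σ hσ
  refine ⟨m, lucasSeq (τ ℓ) (ℓ : 𝕋) j, ?_, ?_, ?_, ?_⟩
  · have htr : LinearMap.trace R ρ.V (ρ.ρ (σ ^ j)) = ψ (lucasSeq (τ ℓ) (ℓ : 𝕋) j) := by
      rw [map_pow, trace_pow_eq_lucasSeq ρ.finrank_eq _ _ _ hch, map_lucasSeq, map_natCast]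
    rw [← htr]
    exact t1
  · have hdet : LinearMap.det (ρ.ρ (σ ^ j)) = (ℓ : R) ^ j := by
      rw [map_pow, map_pow, (tor_trace_det_of_charpoly ρ.finrank_eq _ _ _ hch).2]
    rw [hdet] at t2
    have h9 : (ℓ : R) ^ j - (d : R) ∈ maximalIdeal R ^ n := by
      obtain ⟨k, hk⟩ := (Nat.modEq_iff_dvd).1 hcong
      have h10 : (ℓ : R) ^ j - (d : R) = (p : R) ^ n * ((p : R) ^ c * (-(k : R))) := by
        have := congrArg (fun z : ℤ => (z : R)) hk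
        push_cast at this
        rw [hm, pow_add] at this
        linear_combination -this
      rw [h10]
      exact Ideal.mul_mem_right _ _ (Ideal.pow_mem_pow hpR n)
    have := Ideal.add_mem _ t2 h9
    convert this using 1
    ring
  · intro x
    have hw : (p ^ m) • K.act g⁻¹ (K.κ m x) = 0 := by
      rw [← map_nsmul, K.pow_smul_kappa, map_zero]
    rw [map_lucasSeq, hτ ℓ hℓ hℓT, map_natCast, K.kappa_lucas hℓ hℓbad,
      K.lucas_eq hℓ hℓbad A hA σ hσ, e1, e2, tor_nsmul_eq_of_modEq hcong hw]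
  · intro D hkill
    have hdiv : ∀ x : K.L0, ∃ y : K.L0, ι D x = ((p : ℤ) ^ (n + c)) • y := by
      intro x
      obtain ⟨y, hy⟩ := (K.κ_ker m _).1 (hkill x)
      refine ⟨y, ?_⟩
      rw [hy, ← hm, ← Nat.cast_pow, natCast_zsmul]
    obtain ⟨D', ⟨δ, hδ⟩, hD'⟩ := hc n (ι D) ⟨D, rfl⟩ hdiv
    have hδ' : ι δ = D' := hδ
    have hψD : ψ D = (p : R) ^ n * ψ δ := by
      have h7 : ι (D - (p : 𝕋) ^ n * δ) = 0 := by
        rw [map_sub, map_mul, map_pow, map_natCast, hδ', hD', sub_eq_zero, ← Nat.cast_pow,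
          ← Nat.cast_pow, natCast_zsmul, nsmul_eq_mul]
      have h8 := hker _ h7
      rw [map_sub, map_mul, map_pow, map_natCast, sub_eq_zero] at h8
      exact h8
    rw [hψD]
    exact Ideal.mul_mem_right _ _ (Ideal.pow_mem_pow hpR n)

/-- Intertwining passes to polynomials. -/
theorem tor_aeval_intertwine {L W : Type*} [AddCommGroup L] [AddCommGroup W]
    (f : L →ₗ[ℤ] W) (a : Module.End ℤ L) (b : Module.End ℤ W) (h : ∀ x, f (a x) = b (f x))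
    (F : ℤ[X]) (x : L) : f (aeval a F x) = aeval b F (f x) := by
  induction F using Polynomial.induction_on' generalizing x with
  | add P Q hP hQ => simp only [map_add, LinearMap.add_apply, hP, hQ]
  | monomial k c =>
    simp only [aeval_monomial, Module.End.mul_apply]
    have hk : ∀ (k : ℕ) (y : L), f ((a ^ k) y) = (b ^ k) (f y) := by
      intro k
      induction k with
      | zero => intro y; simp
      | succ k ih => intro y; rw [pow_succ, pow_succ, Module.End.mul_apply, Module.End.mul_apply,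
          ih, h]
    simp only [Module.algebraMap_end_apply, map_zsmul, hk]

/-- **Polynomial version of the master theorem.** -/
theorem aeval_trace_eq_zero_of_kSys (hcheb : WeakChebotarev) {p : ℕ} (hp : p.Prime)
    {bad : Finset ℕ} (hpbad : p ∈ bad) (K : KSys p (↑bad : Set ℕ))
    {𝕋 : Type*} [CommRing 𝕋] (ι : 𝕋 →+* Module.End ℤ K.L0) (τ : ℕ → 𝕋)
    (hτ : ∀ ℓ : ℕ, ℓ.Prime → ℓ ∉ bad → ι (τ ℓ) = K.T0 ℓ)
    {R : Type} [CommRing R] [IsLocalRing R] [IsAdicComplete (maximalIdeal R) R]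
    (hpR : (p : R) ∈ maximalIdeal R)
    (ψ : 𝕋 →+* R) (hker : ∀ t : 𝕋, ι t = 0 → ψ t = 0)
    (ρ : GaloisRepAdic R)
    (hρ : ∀ ℓ : ℕ, ℓ.Prime → ℓ ∉ bad → ∀ A : ValuationSubring Qbar', A.LiesOverPrime ℓ →
      ∀ σ : GQ, A.IsFrobeniusAt σ ℓ →
        LinearMap.charpoly (ρ.ρ σ) = X ^ 2 - C (ψ (τ ℓ)) * X + C (ℓ : R))
    (g : GQ) (d : ℕ) (F : ℤ[X])
    (hgζ : ∀ (m : ℕ) (ζ : Qbar'), ζ ^ (p ^ m) = 1 → g ζ = ζ ^ d)
    (hg : ∀ (m : ℕ) (x : K.L0), aeval (K.act g + d • K.act g⁻¹) F (K.κ m x) = 0) :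
    aeval (LinearMap.trace R ρ.V (ρ.ρ g)) F = 0 ∧ LinearMap.det (ρ.ρ g) = (d : R) := by
  have key : ∀ n : ℕ, aeval (LinearMap.trace R ρ.V (ρ.ρ g)) F - 0 ∈ maximalIdeal R ^ n ∧
      LinearMap.det (ρ.ρ g) - (d : R) ∈ maximalIdeal R ^ n := by
    intro n
    obtain ⟨m, D₀, h1, h2, h3, h4⟩ :=
      exists_hecke_approx hcheb hp hpbad K ι τ hτ hpR ψ hker ρ hρ g d hgζ n
    refine ⟨?_, h2⟩
    have h5 : ψ (aeval D₀ F) ∈ maximalIdeal R ^ n := by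
      apply h4
      intro x
      have h6 : ι (aeval D₀ F) = aeval (ι D₀) F :=
        (Polynomial.aeval_algHom_apply ι.toIntAlgHom D₀ F).symm
      rw [h6, tor_aeval_intertwine (K.κ m) (ι D₀) (K.act g + d • K.act g⁻¹) (fun y => by
        rw [h3 y]; rfl) F x, hg]
    have h7 : ψ (aeval D₀ F) = aeval (ψ D₀) F :=
      (Polynomial.aeval_algHom_apply ψ.toIntAlgHom D₀ F).symm
    rw [h7] at h5
    have h8 : aeval (LinearMap.trace R ρ.V (ρ.ρ g)) F - aeval (ψ D₀) F ∈ maximalIdeal R ^ n := by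
      rw [aeval_def, aeval_def, ← eval_map, ← eval_map]
      exact Ideal.mem_of_dvd _ (Polynomial.sub_dvd_eval_sub _ _ _) h1
    rw [sub_zero]
    have := Ideal.add_mem _ h8 h5
    rwa [sub_add_cancel] at this
  exact ⟨tor_eq_of_forall_sub_mem_pow fun n => (key n).1,
    tor_eq_of_forall_sub_mem_pow fun n => (key n).2⟩

end Fermat.Agent.TOR
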