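import Mathlib
import Fermat.Prelude.Def_GaloisRep_LocalConditions
import Fermat.Prelude.Def_CuspForm_HeckeGaloisRepDatum
import Fermat.Agent.GR.Adic.Core
import Fermat.Agent.TOR.AdicMaster

/-!
# TOR / adic wiring of S34

`S34_of_core` : weak Chebotarev + a geometric core `C : Core M p` at an auxiliary level `M`
(`N ∣ M`, `LevelRes N M`) on which inertia at `q` acts unipotently, `(τ - 1)² = 0`, imply the
conclusion of S34.
-/

set_option autoImplicit false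

namespace Fermat.Agent.TOR

open Fermat.Agent.GR.Adic IsLocalRing Module Polynomial
open Fermat.Agent.GR.Asm (WeakChebotarev)

local notation "Qbar'" => AlgebraicClosure ℚ

/-- Enlarging the set of bad primes. -/
def KSys.mono {p : ℕ} {bad bad' : Set ℕ} (K : KSys p bad) (h : bad ⊆ bad') : KSys p bad' where
  W := K.W
  act := K.act
  smooth := K.smooth
  T := K.T
  frob := fun ℓ hℓ hb => K.frob ℓ hℓ fun h' => hb (h h')
  L0 := K.L0
  T0 := K.T0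
  κ := K.κ
  κ_ker := K.κ_ker
  κ_T := fun ℓ hℓ hb => K.κ_T ℓ hℓ fun h' => hb (h h')

/-- The `KSys` underlying a geometric core. -/
def coreKSys {M p : ℕ} [NeZero M] (C : Core M p) (bad : Set ℕ)
    (h : ∀ ℓ : ℕ, ℓ.Prime → ℓ ∉ bad → ¬ ℓ ∣ M * p) : KSys p bad where
  W := C.W
  act := C.act
  smooth := C.smooth
  T := C.T
  frob := fun ℓ hℓ hb => C.frob ℓ hℓ (h ℓ hℓ hb)
  L0 := C.L0
  T0 := C.T0
  κ := C.κ
  κ_ker := C.κ_ker
  κ_T := fun ℓ hℓ hb => C.κ_T ℓ hℓ fun hd => h ℓ hℓ hb (Dvd.dvd.mul_right hd p)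

/-- Unipotence gives `τ + τ⁻¹ = 2`. -/
theorem tor_add_inv_of_unipotent {W : Type*} [AddCommGroup W] {G : Type*} [Group G]
    (act : G →* Module.End ℤ W) (τ : G) (h : (act τ - 1) * (act τ - 1) = 0) (w : W) :
    act τ w + 1 • act τ⁻¹ w = (2 : ℤ) • w := by
  have h1 : act τ * act τ⁻¹ = 1 := by rw [← map_mul, mul_inv_cancel, map_one]
  have h2 : act τ + act τ⁻¹ = 2 := by
    have h3 := congrArg (fun f => f * act τ⁻¹) h
    simp only [zero_mul, mul_assoc, sub_mul, one_mul, h1, mul_sub, mul_one] at h3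
    rw [← sub_eq_zero, ← h3, ← one_add_one_eq_two]
    abel
  have h4 := congrArg (fun f : Module.End ℤ W => f w) h2
  simp only [LinearMap.add_apply] at h4
  rw [one_smul, h4, show (2 : Module.End ℤ W) = ((2 : ℤ) : Module.End ℤ W) by norm_cast,
    Module.End.intCast_apply]

/-- **S34 from weak Chebotarev, a geometric core at level `M` and unipotence of inertia at `q`
on its Kummer classes.** -/
theorem S34_of_core (hcheb : WeakChebotarev)
    {𝒪 : Type} [CommRing 𝒪] [IsDomain 𝒪] [IsDiscreteValuationRing 𝒪]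
    [IsAdicComplete (maximalIdeal 𝒪) 𝒪]
    {p : ℕ} (hp : p.Prime) (hp𝒪 : (p : 𝒪) ∈ maximalIdeal 𝒪)
    {N : ℕ} [NeZero N] {S : Finset ℕ}
    {θ : CuspForm.heckeAlgebra N 2 (↑S : Set ℕ) →+* ResidueField 𝒪}
    {T : Type} [CommRing T] [IsLocalRing T] [IsNoetherianRing T]
    [IsAdicComplete (maximalIdeal T) T] [Algebra 𝒪 T] [IsLocalHom (algebraMap 𝒪 T)]
    [Module.Finite 𝒪 T] [Module.Free 𝒪 T]
    (H : CuspForm.HeckeGaloisRepDatum N (↑S : Set ℕ) 𝒪 θ T)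
    (q : ℕ) (hq : q.Prime) (hqp : q ≠ p)
    {M : ℕ} [NeZero M] (C : Core M p) (hLR : LevelRes N M)
    (hU : ∀ P : ValuationSubring Qbar', P.LiesOverPrime q → ∀ τ ∈ P.inertiaSubgroupIn ℚ,
      (C.act τ - 1) * (C.act τ - 1) = 0) :
    H.ρ.IsUnipotentOnInertiaAt q := by
  classical
  intro P hP g hg
  have hpT : (p : T) ∈ maximalIdeal T := by
    have h1 : (p : T) = algebraMap 𝒪 T (p : 𝒪) := (map_natCast _ _).symm
    rw [h1]
    exact map_nonunit (algebraMap 𝒪 T) _ hp𝒪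
  set S' : Set ℕ := (↑S : Set ℕ) ∪ badSet M with hS'
  obtain ⟨r, hr⟩ := hLR (↑S : Set ℕ) S' Set.subset_union_left Set.subset_union_right
  set bad : Finset ℕ := S ∪ N.primeFactors ∪ (M * p).primeFactors with hbad
  have hMp : M * p ≠ 0 := Nat.mul_ne_zero (NeZero.ne M) hp.ne_zero
  have hb : ∀ ℓ : ℕ, ℓ.Prime → ℓ ∉ bad → ¬ ℓ ∣ N ∧ ℓ ∉ (↑S : Set ℕ) ∧ ¬ ℓ ∣ M * p := by
    intro ℓ hℓ hmem
    rw [hbad, Finset.mem_union, Finset.mem_union, not_or, not_or] at hmem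
    refine ⟨fun hd => hmem.1.2 (Nat.mem_primeFactors.2 ⟨hℓ, hd, NeZero.ne N⟩), ?_,
      fun hd => hmem.2 (Nat.mem_primeFactors.2 ⟨hℓ, hd, hMp⟩)⟩
    simpa using hmem.1.1
  have hb' : ∀ ℓ : ℕ, ℓ.Prime → ℓ ∉ bad → ¬ ℓ ∣ M ∧ ℓ ∉ S' := by
    intro ℓ hℓ hmem
    obtain ⟨-, h2, h3⟩ := hb ℓ hℓ hmem
    have hM : ¬ ℓ ∣ M := fun hd => h3 (Dvd.dvd.mul_right hd p)
    exact ⟨hM, fun h => h.elim h2 (not_mem_badSet hM)⟩
  have hpbad : p ∈ bad := by
    rw [hbad]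
    exact Finset.mem_union_right _ (Nat.mem_primeFactors.2 ⟨hp, Dvd.intro_left M rfl, hMp⟩)
  let K : KSys p (↑bad : Set ℕ) := coreKSys C (↑bad : Set ℕ)
    (fun ℓ hℓ hmem => (hb ℓ hℓ (by simpa using hmem)).2.2)
  let incl : CuspForm.heckeAlgebra M 2 S' →+* CuspForm.heckeAlgebra M 2 (badSet M) :=
    (Subalgebra.inclusion (CuspForm.heckeAlgebra_mono (N := M) (k := 2)
      (Set.subset_union_right : badSet M ⊆ S'))).toRingHom
  have hincl : Function.Injective incl := Subalgebra.inclusion_injective _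
  let ι : CuspForm.heckeAlgebra M 2 S' →+* Module.End ℤ K.L0 := C.ι.comp incl
  let τ : ℕ → CuspForm.heckeAlgebra M 2 S' := fun ℓ =>
    if h : ℓ.Prime ∧ ¬ ℓ ∣ M ∧ ℓ ∉ S' then CuspForm.heckeAlgebra.T h.1 h.2.1 h.2.2 else 0
  have hτdef : ∀ (ℓ : ℕ) (hℓ : ℓ.Prime) (hℓM : ¬ ℓ ∣ M) (hℓS' : ℓ ∉ S'),
      τ ℓ = CuspForm.heckeAlgebra.T hℓ hℓM hℓS' := by
    intro ℓ hℓ hℓM hℓS'
    exact dif_pos ⟨hℓ, hℓM, hℓS'⟩
  have h := charpoly_eq_of_kSys hcheb hp hpbad K ι τ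
    (by
      intro ℓ hℓ hmem
      obtain ⟨hM, hS⟩ := hb' ℓ hℓ hmem
      rw [hτdef ℓ hℓ hM hS]
      exact C.ι_T ℓ hℓ hM)
    hpT (H.π.comp r)
    (by
      intro t ht
      have : t = 0 := hincl (C.ι_inj (by rw [map_zero, map_zero]; exact ht))
      rw [this, map_zero])
    H.ρ
    (by
      intro ℓ hℓ hmem A hA σ hσ
      obtain ⟨hM, hS⟩ := hb' ℓ hℓ hmem
      obtain ⟨hN, hS0, -⟩ := hb ℓ hℓ hmem
      rw [hτdef ℓ hℓ hM hS, RingHom.comp_apply, hr ℓ hℓ hM hS hN hS0]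
      exact H.charpoly_frob ℓ hℓ hN hS0 A hA σ hσ)
    g 1 2
    (by
      intro m ζ hζ
      rw [pow_one]
      exact tor_inertia_root P hp hq hqp hP g hg m hζ)
    (by
      intro m x
      exact tor_add_inv_of_unipotent C.act g (hU P hP g hg) _)
  rw [h]
  simp only [Int.cast_ofNat, Nat.cast_one, map_one]
  rw [show (Polynomial.C (2 : T) : T[X]) = 2 from map_ofNat Polynomial.C 2]
  ring

end Fermat.Agent.TOR
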