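import Mathlib
import Fermat.Prelude.Def_CuspForm_HeckeGaloisRepDatum
import Fermat.Agent.TOR.AdicMaster
import Fermat.Agent.TOR.Adic34

/-!
# TOR / adic wiring of S35

`charpoly_frobenius_of_steinberg` : the characteristic polynomial of a Frobenius lift at `q` from the
relation `σ² - a (q + 1) σ + q = 0` on the Kummer classes of a `KSys`.

`SteinbergAt` : the contract which the geometric part has to deliver for each prime `q ‖ M`.

`S35_of_S30` : the conclusion of S35 from the conclusion of S30, weak Chebotarev and `SteinbergAt`.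
-/

set_option autoImplicit false

namespace Fermat.Agent.TOR

open Fermat.Agent.GR.Adic IsLocalRing Module Polynomial
open Fermat.Agent.GR.Asm (WeakChebotarev)

local notation "Qbar'" => AlgebraicClosure ℚ

/-- From `σ² - t σ + q = 0` to `σ + q σ⁻¹ = t`. -/
theorem tor_add_inv_of_quadratic {W : Type*} [AddCommGroup W] {G : Type*} [Group G]
    (act : G →* Module.End ℤ W) (σ : G) (q : ℕ) (t : ℤ) (w : W)
    (h : act σ (act σ w) - t • act σ w + q • w = 0) :
    act σ w + q • act σ⁻¹ w = t • w := by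
  have h1 : ∀ v : W, act σ⁻¹ (act σ v) = v := by
    intro v
    rw [← Module.End.mul_apply, ← map_mul, inv_mul_cancel, map_one, Module.End.one_apply]
  have h2 := congrArg (act σ⁻¹) h
  rw [map_add, map_sub, map_zsmul, map_nsmul, h1, h1, map_zero] at h2
  rw [← sub_eq_zero, ← h2]
  abel

/-- The characteristic polynomial of a Frobenius lift at a Steinberg prime. -/
theorem charpoly_frobenius_of_steinberg (hcheb : WeakChebotarev) {p : ℕ} (hp : p.Prime)
    {bad : Finset ℕ} (hpbad : p ∈ bad) (K : KSys p (↑bad : Set ℕ))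
    {𝕋 : Type*} [CommRing 𝕋] (ι : 𝕋 →+* Module.End ℤ K.L0) (τ : ℕ → 𝕋)
    (hτ : ∀ ℓ : ℕ, ℓ.Prime → ℓ ∉ bad → ι (τ ℓ) = K.T0 ℓ)
    {R : Type} [CommRing R] [IsLocalRing R] [IsAdicComplete (maximalIdeal R) R]
    (hpR : (p : R) ∈ maximalIdeal R)
    (ψ : 𝕋 →+* R) (hker : ∀ t : 𝕋, ι t = 0 → ψ t = 0)
    (ρ : GaloisRepAdic R)
    (hρ : ∀ ℓ : ℕ, ℓ.Prime → ℓ ∉ bad → ∀ A : ValuationSubring Qbar', A.LiesOverPrime ℓ →
      ∀ σ : GQ, A.IsFrobeniusAt σ ℓ →
        LinearMap.charpoly (ρ.ρ σ) = X ^ 2 - C (ψ (τ ℓ)) * X + C (ℓ : R))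
    {q : ℕ} (hq : q.Prime) (hqp : q ≠ p) (a : ℤ)
    (A : ValuationSubring Qbar') (hA : A.LiesOverPrime q) (σ : GQ) (hσ : A.IsFrobeniusAt σ q)
    (hSt : ∀ (m : ℕ) (x : K.L0), K.act σ (K.act σ (K.κ m x))
      - (a * ((q : ℤ) + 1)) • K.act σ (K.κ m x) + q • K.κ m x = 0) :
    LinearMap.charpoly (ρ.ρ σ) = X ^ 2 - C ((a : R) * ((q : R) + 1)) * X + C (q : R) := by
  have h := charpoly_eq_of_kSys hcheb hp hpbad K ι τ hτ hpR ψ hker ρ hρ σ q (a * ((q : ℤ) + 1))
    (fun m ζ hζ => tor_frobenius_root A hp hq hqp hA σ hσ m hζ)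
    (fun m x => tor_add_inv_of_quadratic K.act σ q _ _ (hSt m x))
  rw [h]
  push_cast
  rfl

/-- **The contract for S35 at a prime `q`.**  `al ℓ ∈ O` are the Hecke eigenvalues (only the values
at primes outside the finite set `B` matter).  There are a sign `a = ± 1`, a `KSys` (in practice: the
sublattice `{U_q = a, w_q = -a}` of `Hom_par(Γ₀(M₁), ℤ)`, `M₁` an auxiliary level) through whose
Hecke ring the eigensystem factors and on whose Kummer classes every Frobenius lift `σ` at `q`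
satisfies `(σ - a)(σ - q a) = 0`. -/
def SteinbergAt (p q : ℕ) (O : Type) [CommRing O] (al : ℕ → O) : Prop :=
  ∃ (bad : Finset ℕ) (K : KSys p (↑bad : Set ℕ)) (𝕋 : Type) (_ : CommRing 𝕋)
    (ι : 𝕋 →+* Module.End ℤ K.L0) (τ : ℕ → 𝕋) (ψ : 𝕋 →+* O) (a : ℤ),
    p ∈ bad ∧ (∀ ℓ : ℕ, ℓ.Prime → ℓ ∉ bad → ι (τ ℓ) = K.T0 ℓ) ∧
    (∀ t : 𝕋, ι t = 0 → ψ t = 0) ∧
    (∀ ℓ : ℕ, ℓ.Prime → ℓ ∉ bad → ψ (τ ℓ) = al ℓ) ∧
    (a = 1 ∨ a = -1) ∧
    ∀ A : ValuationSubring Qbar', A.LiesOverPrime q → ∀ σ : GQ, A.IsFrobeniusAt σ q →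
      ∀ (m : ℕ) (x : K.L0), K.act σ (K.act σ (K.κ m x))
        - (a * ((q : ℤ) + 1)) • K.act σ (K.κ m x) + q • K.κ m x = 0

/-- Consequence of the contract for any representation with the right Frobenius polynomials
outside a finite set `B`, with coefficients in an extension `R` of `O`. -/
theorem charpoly_of_steinbergAt (hcheb : WeakChebotarev) {p : ℕ} (hp : p.Prime)
    {q : ℕ} (hq : q.Prime) (hqp : q ≠ p)
    {O : Type} [CommRing O] {al : ℕ → O} (hSt : SteinbergAt p q O al)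
    {R : Type} [CommRing R] [IsLocalRing R] [IsAdicComplete (maximalIdeal R) R]
    (hpR : (p : R) ∈ maximalIdeal R) (f : O →+* R)
    (ρ : GaloisRepAdic R) (B : Finset ℕ)
    (hρ : ∀ ℓ : ℕ, ℓ.Prime → ℓ ∉ B → ∀ A : ValuationSubring Qbar', A.LiesOverPrime ℓ →
      ∀ σ : GQ, A.IsFrobeniusAt σ ℓ →
        LinearMap.charpoly (ρ.ρ σ) = X ^ 2 - C (f (al ℓ)) * X + C (ℓ : R))
    (A : ValuationSubring Qbar') (hA : A.LiesOverPrime q) (σ : GQ) (hσ : A.IsFrobeniusAt σ q) :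
    LinearMap.charpoly (ρ.ρ σ) = X ^ 2 - C ((q : R) + 1) * X + C (q : R) ∨
    LinearMap.charpoly (ρ.ρ σ) = X ^ 2 + C ((q : R) + 1) * X + C (q : R) := by
  classical
  obtain ⟨bad, K, 𝕋, _, ι, τ, ψ, a, hpbad, hτ, hker, hψ, ha, hrel⟩ := hSt
  have hsub : (↑bad : Set ℕ) ⊆ (↑(bad ∪ B) : Set ℕ) := by
    intro x hx
    simp only [Finset.coe_union, Set.mem_union]
    exact Or.inl hx
  have h := charpoly_frobenius_of_steinberg hcheb hp (bad := bad ∪ B)
    (Finset.mem_union_left _ hpbad) (K.mono hsub) ι τ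
    (fun ℓ hℓ hmem => hτ ℓ hℓ fun h' => hmem (Finset.mem_union_left _ h'))
    hpR (f.comp ψ) (fun t ht => by rw [RingHom.comp_apply, hker t ht, map_zero]) ρ
    (fun ℓ hℓ hmem A' hA' σ' hσ' => by
      rw [RingHom.comp_apply, hψ ℓ hℓ fun h' => hmem (Finset.mem_union_left _ h')]
      exact hρ ℓ hℓ (fun h' => hmem (Finset.mem_union_right _ h')) A' hA' σ' hσ')
    hq hqp a A hA σ hσ (hrel A hA σ hσ)
  rcases ha with rfl | rfl
  · left
    rw [h]; simp
  · right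
    rw [h]
    simp only [Int.cast_neg, Int.cast_one, neg_mul, one_mul, map_neg, sub_neg_eq_add]

end Fermat.Agent.TOR
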