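import Mathlib
import Fermat.Agent.TOR.AdicPoly
import Fermat.Agent.TOR.S35Wiring

/-!
# TOR / adic wiring of S35, weak contract

`SteinbergAtQ` : weaker contract for S35 at `q` : on the Kummer classes of the `KSys` every
Frobenius lift `σ` at `q` satisfies the QUARTIC relation `(σ² - q²)(σ - q a)(σ - a) = 0`
(`a = ± 1`).  No Atkin--Lehner involution is needed on the Kummer side.

`S35_of_S30_Q` : S35 from S30, weak Chebotarev and `SteinbergAtQ`.
-/

set_option autoImplicit false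

namespace Fermat.Agent.TOR

open Fermat.Agent.GR.Adic IsLocalRing Module Polynomial
open Fermat.Agent.GR.Asm (WeakChebotarev)

local notation "Qbar'" => AlgebraicClosure ℚ

theorem tor_comm_identity {C : Type*} [CommRing C] (x y a q : C) (hxy : x * y = 1)
    (ha : a * a = 1) :
    (a * (q + 1) - (x + q * y)) * ((q + 1) - (x + q * y)) * ((q + 1) + (x + q * y))
      = y ^ 3 * (x ^ 2 - 1) * ((x ^ 2 - q ^ 2) * (x - q * a) * (x - a)) := by
  have e1 : a * (q + 1) - (x + q * y) = -(y * (x ^ 2 - a * (q + 1) * x + q)) := by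
    linear_combination (x - a * (q + 1)) * hxy
  have e2 : (q + 1) - (x + q * y) = -(y * (x ^ 2 - (q + 1) * x + q)) := by
    linear_combination (x - (q + 1)) * hxy
  have e3 : (q + 1) + (x + q * y) = y * (x ^ 2 + (q + 1) * x + q) := by
    linear_combination (-(x + (q + 1))) * hxy
  rw [e1, e2, e3]
  linear_combination (-(y ^ 3 * (x ^ 2 - (q + 1) * x + q) * (x ^ 2 + (q + 1) * x + q) * q)) * ha

open scoped IsMulCommutative in
theorem tor_end_identity {W : Type*} [AddCommGroup W] (S S' : Module.End ℤ W) (h1 : S * S' = 1)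
    (h2 : S' * S = 1) (q a : ℤ) (ha : a * a = 1) :
    (((a * (q + 1) : ℤ) : Module.End ℤ W) - (S + (q : Module.End ℤ W) * S'))
        * (((q + 1 : ℤ) : Module.End ℤ W) - (S + (q : Module.End ℤ W) * S'))
        * (((q + 1 : ℤ) : Module.End ℤ W) + (S + (q : Module.End ℤ W) * S'))
      = S' ^ 3 * (S ^ 2 - 1) * ((S ^ 2 - ((q ^ 2 : ℤ) : Module.End ℤ W))
        * (S - ((q * a : ℤ) : Module.End ℤ W)) * (S - (a : Module.End ℤ W))) := by
  have hcomm : ∀ u ∈ ({S, S'} : Set (Module.End ℤ W)), ∀ v ∈ ({S, S'} : Set (Module.End ℤ W)),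
      Commute u v := by
    intro u hu v hv
    rcases hu with rfl | rfl <;> rcases hv with rfl | rfl
    · exact Commute.refl _
    · exact h1.trans h2.symm
    · exact h2.trans h1.symm
    · exact Commute.refl _
  have : IsMulCommutative (Algebra.adjoin ℤ ({S, S'} : Set (Module.End ℤ W))) :=
    Algebra.isMulCommutative_adjoin ℤ hcomm
  let x : Algebra.adjoin ℤ ({S, S'} : Set (Module.End ℤ W)) :=
    ⟨S, Algebra.subset_adjoin (by simp)⟩
  let y : Algebra.adjoin ℤ ({S, S'} : Set (Module.End ℤ W)) :=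
    ⟨S', Algebra.subset_adjoin (by simp)⟩
  have hxy : x * y = 1 := Subtype.ext h1
  have h := tor_comm_identity x y (a : Algebra.adjoin ℤ ({S, S'} : Set (Module.End ℤ W)))
    (q : Algebra.adjoin ℤ ({S, S'} : Set (Module.End ℤ W))) hxy
    (by rw [← Int.cast_mul, ha, Int.cast_one])
  have h' := congrArg Subtype.val h
  push_cast at h' ⊢
  exact h'

/-- The quartic operator `(σ² - q²)(σ - q a)(σ - a)`. -/
def quarticOp {W : Type*} [AddCommGroup W] (S : Module.End ℤ W) (q a : ℤ) : Module.End ℤ W :=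
  (S ^ 2 - ((q ^ 2 : ℤ) : Module.End ℤ W)) * (S - ((q * a : ℤ) : Module.End ℤ W))
    * (S - (a : Module.End ℤ W))

/-- The cubic polynomial `(a (q + 1) - X) (q + 1 - X) (q + 1 + X)`. -/
noncomputable def cubicPoly (q a : ℤ) : ℤ[X] :=
  (C (a * (q + 1)) - X) * (C (q + 1) - X) * (C (q + 1) + X)

theorem aeval_cubicPoly {B : Type*} [Ring B] [Algebra ℤ B] (s : B) (q a : ℤ) :
    aeval s (cubicPoly q a)
      = (((a * (q + 1) : ℤ) : B) - s) * (((q + 1 : ℤ) : B) - s) * (((q + 1 : ℤ) : B) + s) := by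
  rw [cubicPoly, map_mul (aeval (R := ℤ) s), map_mul (aeval (R := ℤ) s),
    map_sub (aeval (R := ℤ) s), map_sub (aeval (R := ℤ) s), map_add (aeval (R := ℤ) s),
    aeval_C, aeval_C, aeval_X, eq_intCast, eq_intCast]

theorem aeval_cubicPoly_of_quartic {W : Type*} [AddCommGroup W] {G : Type*} [Group G]
    (act : G →* Module.End ℤ W) (σ : G) (q : ℕ) (a : ℤ) (ha : a * a = 1) (w : W)
    (h : quarticOp (act σ) q a w = 0) :
    aeval (act σ + q • act σ⁻¹) (cubicPoly q a) w = 0 := by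
  have h1 : act σ * act σ⁻¹ = 1 := by rw [← map_mul, mul_inv_cancel, map_one]
  have h2 : act σ⁻¹ * act σ = 1 := by rw [← map_mul, inv_mul_cancel, map_one]
  have h3 := tor_end_identity (act σ) (act σ⁻¹) h1 h2 q a ha
  have h4 : aeval (act σ + q • act σ⁻¹) (cubicPoly q a)
      = act σ⁻¹ ^ 3 * (act σ ^ 2 - 1) * quarticOp (act σ) q a := by
    rw [quarticOp, ← h3, aeval_cubicPoly, nsmul_eq_mul, Int.cast_natCast]
  rw [h4, Module.End.mul_apply, h, map_zero]

/-- **The weak contract for S35 at a prime `q`.** -/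
def SteinbergAtQ (p q : ℕ) (O : Type) [CommRing O] (al : ℕ → O) : Prop :=
  ∃ (bad : Finset ℕ) (K : KSys p (↑bad : Set ℕ)) (𝕋 : Type) (_ : CommRing 𝕋)
    (ι : 𝕋 →+* Module.End ℤ K.L0) (τ : ℕ → 𝕋) (ψ : 𝕋 →+* O) (a : ℤ),
    p ∈ bad ∧ (∀ ℓ : ℕ, ℓ.Prime → ℓ ∉ bad → ι (τ ℓ) = K.T0 ℓ) ∧
    (∀ t : 𝕋, ι t = 0 → ψ t = 0) ∧
    (∀ ℓ : ℕ, ℓ.Prime → ℓ ∉ bad → ψ (τ ℓ) = al ℓ) ∧
    (a = 1 ∨ a = -1) ∧
    ∀ A : ValuationSubring Qbar', A.LiesOverPrime q → ∀ σ : GQ, A.IsFrobeniusAt σ q →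
      ∀ (m : ℕ) (x : K.L0), quarticOp (K.act σ) q a (K.κ m x) = 0

/-- The strong contract implies the weak one. -/
theorem SteinbergAt.toQ {p q : ℕ} {O : Type} [CommRing O] {al : ℕ → O}
    (h : SteinbergAt p q O al) : SteinbergAtQ p q O al := by
  obtain ⟨bad, K, 𝕋, i, ι, τ, ψ, a, hpbad, hτ, hker, hψ, ha, hrel⟩ := h
  refine ⟨bad, K, 𝕋, i, ι, τ, ψ, a, hpbad, hτ, hker, hψ, ha, ?_⟩
  intro A hA σ hσ m x
  have haa : a * a = 1 := by rcases ha with rfl | rfl <;> norm_num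
  have h1 := hrel A hA σ hσ m x
  have h2 : ((K.act σ - ((q * a : ℤ) : Module.End ℤ K.W)) * (K.act σ - (a : Module.End ℤ K.W)))
      (K.κ m x) = 0 := by
    rw [← h1]
    simp only [Module.End.mul_apply, LinearMap.sub_apply, Module.End.intCast_apply, map_sub,
      map_zsmul]
    have h3 : a * ((q : ℤ) * a) = q := by linear_combination (q : ℤ) * haa
    rw [smul_sub, smul_smul, h3, natCast_zsmul, mul_add, mul_one, add_smul, mul_comm a (q : ℤ)]
    abel
  rw [quarticOp, mul_assoc, Module.End.mul_apply, h2, map_zero]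

/-- Consequence of the weak contract. -/
theorem charpoly_of_steinbergAtQ (hcheb : WeakChebotarev) {p : ℕ} (hp : p.Prime)
    {q : ℕ} (hq : q.Prime) (hqp : q ≠ p)
    {O : Type} [CommRing O] {al : ℕ → O} (hSt : SteinbergAtQ p q O al)
    {R : Type} [CommRing R] [IsDomain R] [IsLocalRing R] [IsAdicComplete (maximalIdeal R) R]
    (hpR : (p : R) ∈ maximalIdeal R) (f : O →+* R)
    (ρ : GaloisRepAdic R) (B : Finset ℕ)
    (hρ : ∀ ℓ : ℕ, ℓ.Prime → ℓ ∉ B → ∀ A : ValuationSubring Qbar', A.LiesOverPrime ℓ →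
      ∀ σ : GQ, A.IsFrobeniusAt σ ℓ →
        LinearMap.charpoly (ρ.ρ σ) = X ^ 2 - C (f (al ℓ)) * X + C (ℓ : R))
    (A : ValuationSubring Qbar') (hA : A.LiesOverPrime q) (σ : GQ) (hσ : A.IsFrobeniusAt σ q) :
    LinearMap.charpoly (ρ.ρ σ) = X ^ 2 - C ((q : R) + 1) * X + C (q : R) ∨
    LinearMap.charpoly (ρ.ρ σ) = X ^ 2 + C ((q : R) + 1) * X + C (q : R) := by
  classical
  obtain ⟨bad, K, 𝕋, _, ι, τ, ψ, a, hpbad, hτ, hker, hψ, ha, hrel⟩ := hSt
  have haa : a * a = 1 := by rcases ha with rfl | rfl <;> norm_num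
  have hsub : (↑bad : Set ℕ) ⊆ (↑(bad ∪ B) : Set ℕ) := by
    intro x hx
    simp only [Finset.coe_union, Set.mem_union]
    exact Or.inl hx
  obtain ⟨h1, h2⟩ := aeval_trace_eq_zero_of_kSys hcheb hp (bad := bad ∪ B)
    (Finset.mem_union_left _ hpbad) (K.mono hsub) ι τ
    (fun ℓ hℓ hmem => hτ ℓ hℓ fun h' => hmem (Finset.mem_union_left _ h'))
    hpR (f.comp ψ) (fun t ht => by rw [RingHom.comp_apply, hker t ht, map_zero]) ρ
    (fun ℓ hℓ hmem A' hA' σ' hσ' => by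
      rw [RingHom.comp_apply, hψ ℓ hℓ fun h' => hmem (Finset.mem_union_left _ h')]
      exact hρ ℓ hℓ (fun h' => hmem (Finset.mem_union_right _ h')) A' hA' σ' hσ')
    σ q (cubicPoly q a)
    (fun m ζ hζ => tor_frobenius_root A hp hq hqp hA σ hσ m hζ)
    (fun m x => aeval_cubicPoly_of_quartic K.act σ q a haa _ (hrel A hA σ hσ m x))
  rw [tor_charpoly_eq ρ.finrank_eq, h2]
  set t := LinearMap.trace R ρ.V (ρ.ρ σ) with ht
  have h3 : ((a : R) * ((q : R) + 1) - t) * (((q : R) + 1) - t) * (((q : R) + 1) + t) = 0 := by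
    rw [← h1, aeval_cubicPoly]
    simp only [Int.cast_mul, Int.cast_add, Int.cast_natCast, Int.cast_one]
  have hpos : t = (q : R) + 1 → X ^ 2 - C t * X + C (q : R)
      = X ^ 2 - C ((q : R) + 1) * X + C (q : R) := fun h => by rw [h]
  have hneg : t = -((q : R) + 1) → X ^ 2 - C t * X + C (q : R)
      = X ^ 2 + C ((q : R) + 1) * X + C (q : R) := fun h => by
    rw [h, map_neg, neg_mul, sub_neg_eq_add]
  rcases mul_eq_zero.1 h3 with h4 | h4
  · rcases mul_eq_zero.1 h4 with h5 | h5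
    · rcases ha with rfl | rfl
      · left
        apply hpos
        rw [Int.cast_one, one_mul, sub_eq_zero] at h5
        exact h5.symm
      · right
        apply hneg
        rw [Int.cast_neg, Int.cast_one, neg_mul, one_mul, sub_eq_zero] at h5
        exact h5.symm
    · left
      apply hpos
      rw [sub_eq_zero] at h5
      exact h5.symm
  · right
    apply hneg
    exact (neg_eq_of_add_eq_zero_right h4).symm

/-- **S35 from S30, weak Chebotarev and the weak Steinberg contract at every `q ‖ M`,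
`q ≠ lam`.** -/
theorem S35_of_S30_Q (hcheb : WeakChebotarev) (hS30 : S30Statement)
    {M : ℕ} [NeZero M]
    (lam : ℕ) [Fact lam.Prime]
    (S : Finset ℕ)
    (O' : Type) [CommRing O'] [IsDomain O'] [IsDiscreteValuationRing O']
    [IsAdicComplete (IsLocalRing.maximalIdeal O') O'] [Finite (IsLocalRing.ResidueField O')]
    [CharZero O'] (hlamO' : (lam : O') ∈ IsLocalRing.maximalIdeal O')
    (chig : CuspForm.heckeAlgebra M 2 (↑S : Set ℕ) →+* ℂ)
    (iota : chig.range →+* O')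
    (hlamS : lam ∈ S) (hMS : ∀ q : ℕ, q.Prime → q ∣ M → q ∈ S)
    (hSt : ∀ q : ℕ, q.Prime → q ≠ lam → q ∣ M → ¬ q ^ 2 ∣ M →
      SteinbergAtQ lam q O' (eigenFn (iota.comp chig.rangeRestrict))) :
    ∃ (O'' : Type) (_ : CommRing O'') (_ : IsDomain O'') (_ : IsDiscreteValuationRing O'')
      (_ : IsAdicComplete (IsLocalRing.maximalIdeal O'') O'') (_ : Finite (IsLocalRing.ResidueField O''))
      (_ : CharZero O'') (_ : Algebra O' O'') (_ : Module.Finite O' O'') (_ : IsLocalHom (algebraMap O' O'')),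
      Function.Injective (algebraMap O' O'') ∧
      ∃ ρ : GaloisRepAdic O'',
        (∀ (ℓ : ℕ) (hℓ : ℓ.Prime) (hℓM : ¬ ℓ ∣ M) (hℓS : ℓ ∉ (↑S : Set ℕ)),
          ∀ A : ValuationSubring (AlgebraicClosure ℚ), A.LiesOverPrime ℓ →
            ∀ σ : AlgebraicClosure ℚ ≃ₐ[ℚ] AlgebraicClosure ℚ, A.IsFrobeniusAt σ ℓ →
              LinearMap.charpoly (ρ.ρ σ) =
                X ^ 2 - C (algebraMap O' O'' ((iota.comp chig.rangeRestrict) (CuspForm.heckeAlgebra.T hℓ hℓM hℓS))) * X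
                  + C ((ℓ : O''))) ∧
        (∀ q : ℕ, q.Prime → q ≠ lam → q ∣ M → ¬ q ^ 2 ∣ M →
          ∀ A : ValuationSubring (AlgebraicClosure ℚ), A.LiesOverPrime q →
            ∀ σ : AlgebraicClosure ℚ ≃ₐ[ℚ] AlgebraicClosure ℚ, A.IsFrobeniusAt σ q →
              LinearMap.charpoly (ρ.ρ σ) = X ^ 2 - C ((q : O'') + 1) * X + C ((q : O'')) ∨
              LinearMap.charpoly (ρ.ρ σ) = X ^ 2 + C ((q : O'') + 1) * X + C ((q : O''))) := by
  obtain ⟨O'', i1, i2, i3, i4, i5, i6, i7, i8, i9, hinj, ρ, hρ, -⟩ :=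
    hS30 lam M S hlamS hMS O' hlamO' (iota.comp chig.rangeRestrict)
  refine ⟨O'', i1, i2, i3, i4, i5, i6, i7, i8, i9, hinj, ρ, hρ, ?_⟩
  intro q hq hqlam hqM hq2 A hA σ hσ
  have hlamO'' : (lam : O'') ∈ IsLocalRing.maximalIdeal O'' := by
    have h1 : (lam : O'') = algebraMap O' O'' (lam : O') := (map_natCast _ _).symm
    rw [h1]
    exact map_nonunit (algebraMap O' O'') _ hlamO'
  refine charpoly_of_steinbergAtQ hcheb (Fact.out : lam.Prime) hq hqlam (hSt q hq hqlam hqM hq2)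
    hlamO'' (algebraMap O' O'') ρ (S ∪ M.primeFactors) ?_ A hA σ hσ
  intro ℓ hℓ hmem A' hA' σ' hσ'
  rw [Finset.mem_union, not_or] at hmem
  have hℓM : ¬ ℓ ∣ M := fun hd => hmem.2 (Nat.mem_primeFactors.2 ⟨hℓ, hd, NeZero.ne M⟩)
  have hℓS : ℓ ∉ (↑S : Set ℕ) := by simpa using hmem.1
  rw [eigenFn_eq _ hℓ hℓM hℓS]
  exact hρ ℓ hℓ hℓM hℓS A' hA' σ' hσ'

end Fermat.Agent.TOR
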