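import Mathlib
import Fermat.Agent.GR.CB.Main
import Fermat.Agent.TOR.AdicMaster

/-!
# TOR : the `KSys` attached to helper80's CoreBuild objects and a lattice `e : L0 → Hom_par(Γ₀(M), ℤ)`

`cbKSys` : `W = SS 𝒜` (classes of Kummer units), `act = actS`, `T = TS`, `κ m = kappaS m ∘ e` for a
saturated Hecke-equivariant embedding `e` of a finite free `ℤ`-module `L0`.
-/

set_option autoImplicit false

open ModularCurve AlgebraicCurve CongruenceSubgroup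
open Fermat.Agent.GAL Fermat.Agent.GR.CB
open scoped MatrixGroups

noncomputable section

namespace Fermat.Agent.TOR

/-- Eichler--Shimura, elementwise, on `VV 𝒜` (this is what the key lemma gives). -/
def EsElt {M p : ℕ} (𝒜 : AnFamily M p) : Prop :=
  ∀ (ℓ : ℕ) [NeZero ℓ], ℓ.Prime → ¬ ℓ ∣ M * p → ∀ A : ValuationSubring Qb,
    A.LiesOverPrime ℓ → ∀ σ : GQ, A.IsFrobeniusAt σ ℓ → ∀ u ∈ VV 𝒜,
      galU σ (galU σ u) * u ^ ℓ * (heckeU ℓ (galU σ u))⁻¹ ∈ FLU M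

/-- the former name of `EsElt` (both names may be used). -/
abbrev ESElem {M p : ℕ} (𝒜 : AnFamily M p) : Prop := EsElt 𝒜

/-- `EsElt` from the official contract of block KL. -/
theorem esElt_of_keyLemma {M p : ℕ} [NeZero M] (hM : AdmLevel M)
    (𝒜 : AnFamily M p) (hK : KeyLemmaStatement) : EsElt 𝒜 := by
  have hdvd : ∀ {ℓ : ℕ}, ℓ.Prime → ¬ ℓ ∣ M * p → ∀ m : ℕ, ¬ ℓ ∣ p ^ m := fun hℓ h m h' =>
    h (Dvd.dvd.mul_left (hℓ.dvd_of_dvd_pow h') M)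
  intro ℓ _ hℓ hℓM A hA σ hσ u hu
  have hℓM' : ¬ ℓ ∣ M := fun h => hℓM (Dvd.dvd.mul_right h p)
  obtain ⟨m, hm⟩ := exists_isKum_of_mem_VV 𝒜 hu
  have h1 := es_mem hK (NeZero.ne M) hM hℓ hℓM' (hdvd hℓ hℓM m) A hA σ hσ hm
    (Fermat.Agent.GAL.IsKum.heckeS M ℓ hℓ hℓM' (hm.galS σ))
  rw [mem_FLU]
  simpa [div_eq_mul_inv] using h1

/-- The `KSys` of the CoreBuild objects along a saturated equivariant lattice embedding `e`. -/
def cbKSys {M p : ℕ} (hp : p.Prime) (𝒜 : AnFamily M p) (hes : EsElt 𝒜)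
    (bad : Set ℕ) (hbad : ∀ ℓ : ℕ, ℓ.Prime → ℓ ∉ bad → ¬ ℓ ∣ M * p)
    (L0 : Type) [AddCommGroup L0] [Module.Free ℤ L0] [Module.Finite ℤ L0]
    (T0 : ℕ → Module.End ℤ L0) (e : L0 →ₗ[ℤ] LL0 M)
    (hsat : ∀ (n : ℕ) (x : L0) (y : LL0 M), e x = n • y → ∃ x' : L0, x = n • x')
    (hT : ∀ ℓ : ℕ, ℓ.Prime → ℓ ∉ bad → ∀ x : L0,
      ((e (T0 ℓ x) : LL0 M) : Additive (Gamma0 M) →+ ℤ)
        = heckeCoh M ℓ ((e x : LL0 M) : Additive (Gamma0 M) →+ ℤ)) :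
    KSys p bad where
  W := SS 𝒜
  act := actS 𝒜
  smooth := by
    intro x
    obtain ⟨u, hu, hx⟩ := exists_cls_eq 𝒜 x
    obtain ⟨m, hm⟩ := exists_isKum_of_mem_VV 𝒜 hu
    obtain ⟨-, hf, -⟩ := hm
    have hp0 : p ^ m ≠ 0 := pow_ne_zero _ hp.ne_zero
    obtain ⟨L, hL, H⟩ := exists_level_of_pow_mem M hp0 u hf
    refine ⟨L, hL, fun σ hσ => Subtype.ext ?_⟩
    rw [coe_actS, ← hx, gA_cls]
    have h1 := H σ hσ
    rw [← cls_eq_zero_iff, cls_mul, cls_inv] at h1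
    exact sub_eq_zero.mp (by rw [sub_eq_add_neg]; exact h1)
  T := TS 𝒜
  frob := by
    intro ℓ hℓ hb A hA σ hσ
    have hℓM := hbad ℓ hℓ hb
    have : NeZero ℓ := ⟨hℓ.ne_zero⟩
    have hℓM' : ¬ ℓ ∣ M := fun h => hℓM (Dvd.dvd.mul_right h p)
    ext x
    obtain ⟨u, hu, hx⟩ := exists_cls_eq 𝒜 x
    have h1 := hes ℓ hℓ hℓM A hA σ hσ u hu
    rw [← cls_eq_zero_iff, cls_mul, cls_mul, cls_inv, cls_pow] at h1
    simp only [LinearMap.add_apply, LinearMap.sub_apply, Module.End.mul_apply,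
      LinearMap.zero_apply, Submodule.coe_add, Submodule.coe_sub, Submodule.coe_zero, coe_actS,
      coe_TS 𝒜 ℓ hℓ hℓM']
    rw [Module.End.natCast_apply, Submodule.coe_smul_of_tower, ← hx, gA_cls, gA_cls,
      tA_cls' 𝒜 ℓ hℓ hℓM', ← h1]
    abel
  L0 := L0
  T0 := T0
  κ := fun m => (kappaS 𝒜 m).comp e
  κ_ker := by
    intro m x
    have h1 : ((kappaS 𝒜 m).comp e) x = 0 ↔ ∃ y : LL0 M, e x = (p ^ m) • y := by
      rw [← redL_eq_zero_iff, ← psi_eq_zero_iff 𝒜 m, ← coe_kappaS, Submodule.coe_eq_zero]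
      rfl
    rw [h1]
    constructor
    · rintro ⟨y, hy⟩
      exact hsat _ x y hy
    · rintro ⟨x', rfl⟩
      exact ⟨e x', map_nsmul e _ _⟩
  κ_T := by
    intro ℓ hℓ hb m x
    have hℓM' : ¬ ℓ ∣ M := fun h => hbad ℓ hℓ hb (Dvd.dvd.mul_right h p)
    apply Subtype.ext
    rw [coe_TS 𝒜 ℓ hℓ hℓM']
    show psi 𝒜 m (redL M (p ^ m) (e (T0 ℓ x))) = tA M ℓ (psi 𝒜 m (redL M (p ^ m) (e x)))
    symm
    apply psi_hecke 𝒜 m ℓ hℓ hℓM'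
    exact redL_hecke M (p ^ m) ℓ hℓ hℓM' (e x) _ (hT ℓ hℓ hb x)

end Fermat.Agent.TOR
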