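import Mathlib
import Fermat.Agent.GAL.HK.Transfer

/-!
# TOR : the period lattice of a complex valued homomorphism

`P : Additive Γ →+ ℂ`, `Γ` finitely generated.  `perGrp P = P(Γ) ⊆ ℂ` is a finite free `ℤ`-module.
Its dual `Hom(perGrp P, ℤ)` embeds into `Hom(Γ, ℤ)` (`perEmb`) as the SATURATED sublattice of the
homomorphisms killing `ker P`.  Every transfer operator `D.T` having `P` as an eigenvector with
eigenvalue `c` acts on it as the transpose of the multiplication by `c` (`datum_perEmb`).
So the ring `perStab P = {c | c · P(Γ) ⊆ P(Γ)}` acts faithfully on the dual lattice (`perIota`).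
-/

set_option autoImplicit false

namespace Fermat.Agent.TOR

open Fermat.Agent.GAL.HK

section

variable {Γ : Type*} [Group Γ] (P : Additive Γ →+ ℂ)

/-- the group of periods -/
def perGrp : Submodule ℤ ℂ := AddSubgroup.toIntSubmodule P.range

theorem mem_perGrp {z : ℂ} : z ∈ perGrp P ↔ ∃ γ, P γ = z := Iff.rfl

/-- `P` with values in its group of periods -/
def perRes : Additive Γ →+ perGrp P where
  toFun γ := ⟨P γ, ⟨γ, rfl⟩⟩
  map_zero' := Subtype.ext (map_zero P)
  map_add' a b := Subtype.ext (map_add P a b)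

@[simp] theorem coe_perRes (γ : Additive Γ) : ((perRes P γ : perGrp P) : ℂ) = P γ := rfl

theorem perRes_surjective : Function.Surjective (perRes P) := by
  rintro ⟨z, γ, rfl⟩
  exact ⟨γ, rfl⟩

instance perGrp_finite [Group.FG Γ] : Module.Finite ℤ (perGrp P) := by
  rw [Module.Finite.iff_addGroup_fg]
  exact AddGroup.fg_of_surjective (perRes_surjective P)

instance perGrp_free [Group.FG Γ] : Module.Free ℤ (perGrp P) :=
  Module.free_of_finite_type_torsion_free'

/-- the embedding of the dual of the period group into `Hom(Γ, ℤ)` -/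
def perEmb : Module.Dual ℤ (perGrp P) →ₗ[ℤ] (Additive Γ →+ ℤ) where
  toFun f := f.toAddMonoidHom.comp (perRes P)
  map_add' _ _ := AddMonoidHom.ext fun _ => rfl
  map_smul' _ _ := AddMonoidHom.ext fun _ => rfl

@[simp] theorem perEmb_apply (f : Module.Dual ℤ (perGrp P)) (γ : Additive Γ) :
    perEmb P f γ = f (perRes P γ) := rfl

theorem perEmb_injective : Function.Injective (perEmb P) := by
  intro f g h
  ext π
  obtain ⟨γ, rfl⟩ := perRes_surjective P π
  exact DFunLike.congr_fun h γ

/-- saturation -/
theorem exists_eq_smul_of_perEmb [Group.FG Γ] (n : ℕ) (f : Module.Dual ℤ (perGrp P))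
    (y : Additive Γ →+ ℤ) (h : perEmb P f = n • y) : ∃ f' : Module.Dual ℤ (perGrp P), f = n • f' := by
  classical
  have hdvd : ∀ π : perGrp P, (n : ℤ) ∣ f π := by
    intro π
    obtain ⟨γ, rfl⟩ := perRes_surjective P π
    refine ⟨y γ, ?_⟩
    have := DFunLike.congr_fun h γ
    rw [perEmb_apply] at this
    rw [this]
    simp
  let b := Module.Free.chooseBasis ℤ (perGrp P)
  refine ⟨b.constr ℤ fun i => f (b i) / n, b.ext fun i => ?_⟩
  rw [LinearMap.smul_apply, Module.Basis.constr_basis, nsmul_eq_mul, Int.mul_ediv_cancel' (hdvd _)]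

/-- the ring of multipliers of the period group -/
def perStab : Subring ℂ where
  carrier := {c | ∀ π ∈ perGrp P, c * π ∈ perGrp P}
  mul_mem' := by
    intro a b ha hb π hπ
    rw [mul_assoc]
    exact ha _ (hb _ hπ)
  one_mem' := by
    intro π hπ
    rwa [one_mul]
  add_mem' := by
    intro a b ha hb π hπ
    rw [add_mul]
    exact add_mem (ha _ hπ) (hb _ hπ)
  zero_mem' := by
    intro π _
    rw [zero_mul]
    exact zero_mem _
  neg_mem' := by
    intro a ha π hπ
    rw [neg_mul]
    exact neg_mem (ha _ hπ)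

theorem mem_perStab {c : ℂ} : c ∈ perStab P ↔ ∀ π ∈ perGrp P, c * π ∈ perGrp P := Iff.rfl

/-- multiplication by a multiplier -/
def perMul (c : perStab P) : perGrp P →ₗ[ℤ] perGrp P where
  toFun π := ⟨(c : ℂ) * π, c.2 π π.2⟩
  map_add' a b := Subtype.ext (mul_add _ _ _)
  map_smul' k a := Subtype.ext (by simp; ring)

@[simp] theorem coe_perMul (c : perStab P) (π : perGrp P) :
    ((perMul P c π : perGrp P) : ℂ) = (c : ℂ) * π := rfl

/-- the action of the multipliers on the dual lattice -/
def perIota : perStab P →+* Module.End ℤ (Module.Dual ℤ (perGrp P)) where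
  toFun c := (perMul P c).dualMap
  map_one' := by
    ext f π
    show f (perMul P 1 π) = f π
    congr 1
    exact Subtype.ext (by simp)
  map_mul' a b := by
    ext f π
    show f (perMul P (a * b) π) = f (perMul P b (perMul P a π))
    congr 1
    exact Subtype.ext (by simp; ring)
  map_zero' := by
    ext f π
    show f (perMul P 0 π) = 0
    have : perMul P 0 π = 0 := Subtype.ext (by simp)
    rw [this, map_zero]
  map_add' a b := by
    ext f π
    show f (perMul P (a + b) π) = f (perMul P a π) + f (perMul P b π)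
    rw [← map_add]
    congr 1
    exact Subtype.ext (by simp; ring)

@[simp] theorem perIota_apply (c : perStab P) (f : Module.Dual ℤ (perGrp P)) (π : perGrp P) :
    perIota P c f π = f (perMul P c π) := rfl

theorem eq_zero_of_perIota_eq_zero [Group.FG Γ] (hP : P ≠ 0) (c : perStab P)
    (h : perIota P c = 0) : c = 0 := by
  obtain ⟨γ, hγ⟩ : ∃ γ, P γ ≠ 0 := by
    by_contra hcon
    push Not at hcon
    exact hP (AddMonoidHom.ext hcon)
  have h1 : ∀ f : Module.Dual ℤ (perGrp P), f (perMul P c (perRes P γ)) = 0 := by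
    intro f
    have := congrArg (fun E : Module.End ℤ (Module.Dual ℤ (perGrp P)) => E f (perRes P γ)) h
    simpa using this
  have h2 := (Module.forall_dual_apply_eq_zero_iff ℤ _).1 h1
  have h3 := congrArg (Subtype.val) h2
  simp only [coe_perMul, coe_perRes, ZeroMemClass.coe_zero, mul_eq_zero] at h3
  exact Subtype.ext (h3.resolve_right hγ)

theorem coe_datum_perRes (D : HeckeDatum Γ) (γ : Additive Γ) :
    ((D.T (perGrp P) (perRes P) γ : perGrp P) : ℂ) = D.T ℂ P γ := by
  have h1 : P = ((perGrp P).subtype.toAddMonoidHom).comp (perRes P) := AddMonoidHom.ext fun _ => rfl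
  conv_rhs => rw [h1, HeckeDatum.T_comp]
  rfl

/-- an eigenvalue is a multiplier -/
theorem mem_perStab_of_datum (D : HeckeDatum Γ) (c : ℂ) (h : D.T ℂ P = c • P) :
    c ∈ perStab P := by
  rintro _ ⟨γ, rfl⟩
  have h2 : c * P γ = D.T ℂ P γ := by rw [h]; rfl
  rw [h2, ← coe_datum_perRes]
  exact Subtype.mem _

/-- the transfer operator acts on the dual lattice by the transposed multiplication -/
theorem datum_perEmb (D : HeckeDatum Γ) (c : perStab P) (h : D.T ℂ P = (c : ℂ) • P)
    (f : Module.Dual ℤ (perGrp P)) : D.T ℤ (perEmb P f) = perEmb P (perIota P c f) := by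
  have h1 : perEmb P f = f.toAddMonoidHom.comp (perRes P) := rfl
  rw [h1, HeckeDatum.T_comp]
  refine AddMonoidHom.ext fun γ => ?_
  show f (D.T (perGrp P) (perRes P) γ) = f (perMul P c (perRes P γ))
  congr 1
  apply Subtype.ext
  rw [coe_datum_perRes, h]
  rfl

end

end Fermat.Agent.TOR
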