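import Mathlib
import Fermat.Agent.GAL.HK.EigenPeriod
import Fermat.Agent.GAL.HK.Parabolic
import Fermat.Agent.S22.Gamma0FG
import Fermat.Agent.TOR.PeriodLattice
import Fermat.Agent.TOR.CBKSys
import Fermat.Agent.TOR.Adic35Q

/-!
# TOR : the weak Steinberg contract `SteinbergAtQ` from the block contracts

* `AnU 𝒜 q`  : contract with AN : the analytic family is stable under `U_q = NmL q`, with character
               `cohU`.
* `GoalB M q` : the geometric contract of TOR for S35.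
* `steinbergAtQ_of_period` : the assembly, for an abstract period homomorphism `P`.
-/

set_option autoImplicit false

open ModularCurve AlgebraicCurve CongruenceSubgroup ModularCurve.Period
open Fermat.Agent.GAL Fermat.Agent.GAL.HK Fermat.Agent.GR.CB
open scoped MatrixGroups

noncomputable section

namespace Fermat.Agent.TOR

local notation "Qbar'" => AlgebraicClosure ℚ

/-- the multiplicative `U_q` on units -/
def nmU (q : ℕ) [NeZero q] : UU →* UU := Units.map (NmL Qb q)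

/-- **Contract with AN**: the analytic Kummer elements are stable under `U_q = NmL q` (`q ∣ M`), and
the character of `U_q u` is `cohU` of the character of `u`. -/
structure AnU {M p : ℕ} (𝒜 : AnFamily M p) (q : ℕ) [NeZero q] (hq : q.Prime) (hqM : q ∣ M) :
    Prop where
  mem : ∀ (m : ℕ) (u : UU), u ∈ (𝒜.An m).Van → nmU q u ∈ (𝒜.An m).Van
  chr : ∀ (m : ℕ) (u : UU) (hu : u ∈ (𝒜.An m).Van),
    chrFun (𝒜.An m) (nmU q u) (mem m u hu) = cohU M hq hqM (ZMod (p ^ m)) (chrFun (𝒜.An m) u hu)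

/-- **GOAL B** (geometric contract of TOR for S35): if `u` is an everywhere unramified Kummer
element of exponent `n` prime to `q` at level `M` (`q ‖ M`) whose class is an eigenvector of `U_q`
with eigenvalue `a = ± 1`, then every Frobenius lift `σ` at `q` satisfies
`(σ² - q²)(σ - q a)(σ - a) = 0` on the class of `u`. -/
def GoalB (M q : ℕ) [NeZero q] : Prop :=
  ∀ n : ℕ, n ≠ 0 → ¬ q ∣ n → ∀ a : ℤ, (a = 1 ∨ a = -1) → ∀ u : UU,
    IsKum Qb M n (u : LaurentSeries Qb) → nmU q u * (u ^ a)⁻¹ ∈ FLU M →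
    ∀ A : ValuationSubring Qb, A.LiesOverPrime q → ∀ σ : GAL.GQ, A.IsFrobeniusAt σ q →
      quarticOp (gA M σ) q a (cls M u) = 0

theorem tor_fg_Gamma0 (M : ℕ) [NeZero M] : Group.FG (Gamma0 M) :=
  (Group.fg_iff_subgroup_fg _).mpr (Fermat.Agent.S22.gamma0_fg M)

section asm

variable {M : ℕ} (P : Additive (Gamma0 M) →+ ℂ)

/-- the embedding of the dual period lattice into `Hom_par(Γ₀(M), ℤ)` -/
def perEmbL (hP : IsParabolicHom (Gamma0 M) P) : Module.Dual ℤ (perGrp P) →ₗ[ℤ] LL0 M :=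
  LinearMap.codRestrict (LL0 M) (perEmb P) (by
    intro f γ hγ
    show f (perRes P (Additive.ofMul γ)) = 0
    have : perRes P (Additive.ofMul γ) = 0 := Subtype.ext (hP γ hγ)
    rw [this, map_zero])

@[simp] theorem coe_perEmbL (hP : IsParabolicHom (Gamma0 M) P) (f : Module.Dual ℤ (perGrp P)) :
    ((perEmbL P hP f : LL0 M) : Additive (Gamma0 M) →+ ℤ) = perEmb P f := rfl

end asm

/-- restriction of operators of `AA M` to `SS 𝒜` -/
theorem coe_quarticOp_actS {M p : ℕ} (𝒜 : AnFamily M p) (σ : GAL.GQ) (q a : ℤ) (x : SS 𝒜) :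
    ((quarticOp (actS 𝒜 σ) q a x : SS 𝒜) : AA M) = quarticOp (gA M σ) q a (x : AA M) := by
  simp only [quarticOp, pow_two, Module.End.mul_apply, LinearMap.sub_apply,
    Module.End.intCast_apply, Submodule.coe_sub, coe_actS, Submodule.coe_smul_of_tower, map_sub,
    map_zsmul]

/-- a representative in `Van` of the class `psi 𝒜 m P`. -/
def torPsiRep {M p : ℕ} (𝒜 : AnFamily M p) (m : ℕ) (P : HPar M (p ^ m)) : (𝒜.An m).Van :=
  ((𝒜.An m).chr_surjective (Multiplicative.ofAdd P)).choose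

theorem chr_torPsiRep {M p : ℕ} (𝒜 : AnFamily M p) (m : ℕ) (P : HPar M (p ^ m)) :
    (𝒜.An m).chr (torPsiRep 𝒜 m P) = Multiplicative.ofAdd P :=
  ((𝒜.An m).chr_surjective (Multiplicative.ofAdd P)).choose_spec

theorem psi_eq_cls_torPsiRep {M p : ℕ} (𝒜 : AnFamily M p) (m : ℕ) (P : HPar M (p ^ m)) :
    psi 𝒜 m P = cls M (torPsiRep 𝒜 m P : UU) :=
  psi_eq_cls 𝒜 m P _ (chr_torPsiRep 𝒜 m P)

/-- The class attached to an element of the dual period lattice is an eigenvector of `U_q`. -/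
theorem nmU_psiRep_mem {M p q : ℕ} [NeZero M] [NeZero q] (hq : q.Prime) (hqM : q ∣ M)
    (𝒜 : AnFamily M p) (hAU : AnU 𝒜 q hq hqM)
    (P : Additive (Gamma0 M) →+ ℂ) (hPpar : IsParabolicHom (Gamma0 M) P)
    (a : ℤ) (hPU : cohU M hq hqM ℂ P = (a : ℂ) • P) (m : ℕ) (f : Module.Dual ℤ (perGrp P)) :
    nmU q (torPsiRep 𝒜 m (redL M (p ^ m) (perEmbL P hPpar f)) : UU)
      * ((torPsiRep 𝒜 m (redL M (p ^ m) (perEmbL P hPpar f)) : UU) ^ a)⁻¹ ∈ FLU M := by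
  set Q := redL M (p ^ m) (perEmbL P hPpar f) with hQ
  set u := torPsiRep 𝒜 m Q with hu
  have hmem := hAU.mem m (u : UU) u.2
  have hchr := hAU.chr m (u : UU) u.2
  have hchru : chrFun (𝒜.An m) (u : UU) u.2 = (Q : Additive (Gamma0 M) →+ ZMod (p ^ m)) := by
    rw [chrFun]
    have : (⟨(u : UU), u.2⟩ : (𝒜.An m).Van) = u := rfl
    rw [this, hu, chr_torPsiRep]
    rfl
  -- `cohU Q = a • Q`
  have haStab : (a : ℂ) ∈ perStab P := intCast_mem _ a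
  have hUemb : (datumU M hq hqM).T ℤ (perEmb P f) = a • perEmb P f := by
    have h1 := datum_perEmb P (datumU M hq hqM) ⟨(a : ℂ), haStab⟩ hPU f
    have h2 : perIota P ⟨(a : ℂ), haStab⟩ f = a • f := by
      ext π
      rw [perIota_apply, LinearMap.smul_apply, ← map_zsmul]
      congr 1
      exact Subtype.ext (by simp)
    rw [h2, map_zsmul] at h1
    exact h1
  have hUQ : cohU M hq hqM (ZMod (p ^ m)) (Q : Additive (Gamma0 M) →+ ZMod (p ^ m))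
      = a • (Q : Additive (Gamma0 M) →+ ZMod (p ^ m)) := by
    have h1 : (Q : Additive (Gamma0 M) →+ ZMod (p ^ m))
        = (Int.castAddHom (ZMod (p ^ m))).comp (perEmb P f) := rfl
    rw [h1]
    show (datumU M hq hqM).T _ _ = _
    rw [HeckeDatum.T_comp, hUemb]
    refine AddMonoidHom.ext fun γ => ?_
    simp
  -- conclusion through `chr_eq_one_iff`
  have hv : nmU q (u : UU) * ((u : UU) ^ a)⁻¹ ∈ (𝒜.An m).Van :=
    mul_mem hmem (inv_mem (zpow_mem u.2 a))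
  have hone : (𝒜.An m).chr ⟨_, hv⟩ = 1 := by
    have h1 : (⟨_, hv⟩ : (𝒜.An m).Van) = ⟨nmU q (u : UU), hmem⟩ * (u ^ a)⁻¹ := rfl
    have heq : (𝒜.An m).chr ⟨nmU q (u : UU), hmem⟩ = (𝒜.An m).chr u ^ a := by
      apply Multiplicative.toAdd.injective
      apply Subtype.ext
      have h2 : ((Multiplicative.toAdd ((𝒜.An m).chr ⟨nmU q (u : UU), hmem⟩) : HPar M (p ^ m)) :
          Additive (Gamma0 M) →+ ZMod (p ^ m)) = chrFun (𝒜.An m) (nmU q (u : UU)) hmem := rfl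
      rw [h2, hchr, hchru, hUQ, toAdd_zpow, hu, chr_torPsiRep]
      rfl
    rw [h1, map_mul, map_inv, map_zpow, heq]
    exact mul_inv_cancel ((𝒜.An m).chr u ^ a)
  exact ((𝒜.An m).chr_eq_one_iff ⟨_, hv⟩).1 hone

/-- **Assembly of the weak Steinberg contract.** -/
theorem steinbergAtQ_of_period {M p q : ℕ} [NeZero M] [NeZero q] (hp : p.Prime) (hq : q.Prime)
    (hqp : q ≠ p) (hqM : q ∣ M)
    (𝒜 : AnFamily M p) (hAU : AnU 𝒜 q hq hqM) (hes : EsElt 𝒜) (hB : GoalB M q)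
    (P : Additive (Gamma0 M) →+ ℂ) (hPpar : IsParabolicHom (Gamma0 M) P) (hP0 : P ≠ 0)
    (c : ℕ → ℂ) (hPT : ∀ ℓ : ℕ, ℓ.Prime → ¬ ℓ ∣ M → heckeCoh M ℓ P = c ℓ • P)
    (a : ℤ) (ha : a = 1 ∨ a = -1) (hPU : cohU M hq hqM ℂ P = (a : ℂ) • P)
    (Rg : Subring ℂ) {O : Type} [CommRing O] (iota : Rg →+* O) (al : ℕ → O) (B : Finset ℕ)
    (hal : ∀ ℓ : ℕ, ℓ.Prime → ℓ ∉ B → ∃ h : c ℓ ∈ Rg, iota ⟨c ℓ, h⟩ = al ℓ) :
    SteinbergAtQ p q O al := by
  classical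
  have hfg : Group.FG (Gamma0 M) := tor_fg_Gamma0 M
  have hMp : M * p ≠ 0 := Nat.mul_ne_zero (NeZero.ne M) hp.ne_zero
  set bad : Finset ℕ := B ∪ (M * p).primeFactors with hbaddef
  have hbad : ∀ ℓ : ℕ, ℓ.Prime → ℓ ∉ (↑bad : Set ℕ) → ¬ ℓ ∣ M * p := by
    intro ℓ hℓ hmem hd
    apply hmem
    rw [hbaddef]
    simp only [Finset.coe_union, Set.mem_union]
    exact Or.inr (by simpa using Nat.mem_primeFactors.2 ⟨hℓ, hd, hMp⟩)
  have hbadM : ∀ ℓ : ℕ, ℓ.Prime → ℓ ∉ bad → ¬ ℓ ∣ M := fun ℓ hℓ hmem hd =>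
    hbad ℓ hℓ (by simpa using hmem) (Dvd.dvd.mul_right hd p)
  have hbadB : ∀ ℓ : ℕ, ℓ ∉ bad → ℓ ∉ B := fun ℓ hmem h' =>
    hmem (Finset.mem_union_left _ h')
  -- the ring
  let 𝕋 : Subring ℂ := perStab P ⊓ Rg
  let ι : 𝕋 →+* Module.End ℤ (Module.Dual ℤ (perGrp P)) :=
    (perIota P).comp (Subring.inclusion (inf_le_left : perStab P ⊓ Rg ≤ perStab P))
  let ψ : 𝕋 →+* O := iota.comp (Subring.inclusion (inf_le_right : perStab P ⊓ Rg ≤ Rg))
  let τ : ℕ → 𝕋 := fun ℓ => if h : c ℓ ∈ perStab P ⊓ Rg then ⟨c ℓ, h⟩ else 0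
  have hstab : ∀ ℓ : ℕ, ℓ.Prime → ¬ ℓ ∣ M → c ℓ ∈ perStab P := by
    intro ℓ hℓ hℓM
    apply mem_perStab_of_datum P (heckeDatum hℓ hℓM)
    rw [← heckeCoh_eq_T hℓ hℓM]
    exact hPT ℓ hℓ hℓM
  have hτ : ∀ (ℓ : ℕ) (hℓ : ℓ.Prime) (hmem : ℓ ∉ bad),
      ∃ h : c ℓ ∈ perStab P ⊓ Rg, τ ℓ = ⟨c ℓ, h⟩ := by
    intro ℓ hℓ hmem
    obtain ⟨h2, -⟩ := hal ℓ hℓ (hbadB ℓ hmem)
    have h : c ℓ ∈ perStab P ⊓ Rg := ⟨hstab ℓ hℓ (hbadM ℓ hℓ hmem), h2⟩
    exact ⟨h, dif_pos h⟩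
  let K : KSys p (↑bad : Set ℕ) :=
    cbKSys hp 𝒜 hes _ hbad (Module.Dual ℤ (perGrp P)) (fun ℓ => ι (τ ℓ)) (perEmbL P hPpar)
      (fun n x y h => exists_eq_smul_of_perEmb P n x (y : Additive (Gamma0 M) →+ ℤ) (by
        have := congrArg (Subtype.val) h
        exact this))
      (fun ℓ hℓ hb x => by
        have hmem : ℓ ∉ bad := by simpa using hb
        have hℓM := hbadM ℓ hℓ hmem
        obtain ⟨h, hτℓ⟩ := hτ ℓ hℓ hmem
        rw [coe_perEmbL, coe_perEmbL, heckeCoh_eq_T hℓ hℓM,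
          datum_perEmb P (heckeDatum hℓ hℓM) ⟨c ℓ, h.1⟩
            (by rw [← heckeCoh_eq_T hℓ hℓM]; exact hPT ℓ hℓ hℓM), hτℓ]
        rfl)
  refine ⟨bad, K, 𝕋, inferInstance, ι, τ, ψ, a, ?_, fun _ _ _ => rfl, ?_, ?_, ha, ?_⟩
  · exact Finset.mem_union_right _ (Nat.mem_primeFactors.2 ⟨hp, Dvd.intro_left M rfl, hMp⟩)
  · intro t ht
    have h1 := eq_zero_of_perIota_eq_zero P hP0 _ ht
    have h2 : t = 0 := Subring.inclusion_injective _ (h1.trans (map_zero _).symm)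
    rw [h2, map_zero]
  · intro ℓ hℓ hmem
    obtain ⟨h, hτℓ⟩ := hτ ℓ hℓ hmem
    obtain ⟨h2, h3⟩ := hal ℓ hℓ (hbadB ℓ hmem)
    rw [hτℓ, ← h3]
    rfl
  · intro A hA σ hσ m f
    apply Subtype.ext
    show ((quarticOp (actS 𝒜 σ) q a (kappaS 𝒜 m (perEmbL P hPpar f)) : SS 𝒜) : AA M) = 0
    rw [coe_quarticOp_actS, coe_kappaS, psi_eq_cls_torPsiRep]
    have hqn : ¬ q ∣ p ^ m := fun h =>
      hqp ((Nat.prime_dvd_prime_iff_eq hq hp).1 (hq.dvd_of_dvd_pow h))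
    exact hB (p ^ m) (pow_ne_zero _ hp.ne_zero) hqn a ha _ ((𝒜.An m).isKum _ (torPsiRep 𝒜 m _).2)
      (nmU_psiRep_mem hq hqM 𝒜 hAU P hPpar a hPU m f) A hA σ hσ

end Fermat.Agent.TOR
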