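import Mathlib
import Fermat.Agent.TOR.SteinbergAsm

/-!
# TOR : S35 from the block contracts

`S35_of_contracts` : weak Chebotarev + S30 + (T3) `a_q(g)² = 1` + for every `q ‖ M`, `q ≠ lam`, an
auxiliary level `M₁` (`M ∣ M₁`) with `AnFamily M₁ lam`, `AnU`, `EsElt`, `GoalB M₁ q`
imply the conclusion of S35.
-/

set_option autoImplicit false

open ModularCurve AlgebraicCurve CongruenceSubgroup ModularCurve.Period ModularFormClass
open Fermat.Agent.GAL Fermat.Agent.GAL.HK Fermat.Agent.GR.CB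
open scoped MatrixGroups

noncomputable section

namespace Fermat.Agent.TOR

open Fermat.Agent.GR.Asm (WeakChebotarev)
open Polynomial

/-- multiplicativity at a prime dividing the level -/
theorem qCoeff_mul_prime_of_dvd {N : ℕ} {g : CuspForm (Gamma0 N) 2} (hg : g.IsNormalizedEigenform)
    {q : ℕ} (hq : q.Prime) (hqN : q ∣ N) (n : ℕ) :
    qCoeff g (n * q) = qCoeff g q * qCoeff g n := by
  rcases Nat.eq_zero_or_pos n with rfl | hn
  · simp [S49.qc_at_zero g]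
  obtain ⟨r, m, hm, rfl⟩ := Nat.exists_eq_pow_mul_and_not_dvd hn.ne' q hq.ne_one
  have hcop : ∀ k : ℕ, (q ^ k).Coprime m := fun k =>
    Nat.Coprime.pow_left k ((Nat.Prime.coprime_iff_not_dvd hq).2 hm)
  have h2 : q ^ r * m * q = q ^ (r + 1) * m := by ring
  rw [h2, hg.qCoeff_mul_of_coprime _ _ (hcop (r + 1)), hg.qCoeff_mul_of_coprime _ _ (hcop r),
    ← mul_assoc]
  congr 1
  cases r with
  | zero => simp [hg.qCoeff_one]
  | succ s => exact hg.qCoeff_prime_pow_of_dvd q s hq hqN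

/-- a normalized eigenform, seen at a higher level, is an eigenvector of `U_q`. -/
theorem heckeULin_levelUp {N M : ℕ} [NeZero M] (h : N ∣ M) {g : CuspForm (Gamma0 N) 2}
    (hg : g.IsNormalizedEigenform) {q : ℕ} (hq : q.Prime) (hqN : q ∣ N) :
    CuspForm.heckeULin 2 (hqN.trans h) (levelUp h g) = qCoeff g q • levelUp h g := by
  rw [← sub_eq_zero]
  apply S49.qc_ext
  intro n
  have h1 : qCoeff (⇑(CuspForm.heckeULin 2 (hqN.trans h) (levelUp h g)
      - qCoeff g q • levelUp h g)) n =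
      S49.qcLin M 2 n (CuspForm.heckeULin 2 (hqN.trans h) (levelUp h g)
        - qCoeff g q • levelUp h g) := rfl
  rw [h1, map_sub, map_smul, S49.qcLin_apply, S49.qcLin_apply, S49.qc_heckeU hq.ne_zero,
    coe_levelUp, smul_eq_mul, sub_eq_zero]
  exact qCoeff_mul_prime_of_dvd hg hq hqN n

theorem periodMap_levelUp_ne_zero {N M : ℕ} [NeZero M] (hNM : N ∣ M) {g : CuspForm (Gamma0 N) 2}
    (hg : g.IsNormalizedEigenform) : periodMap M (levelUp hNM g) ≠ 0 := by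
  intro h0
  have h1 : levelUp hNM g = 0 :=
    (S21.eq_zero_of_periodMap_add_charInvolution M (levelUp hNM g) 0 (by
      rw [h0, zero_add]
      have : periodMap M (0 : CuspForm (Gamma0 M) 2) = 0 := by
        have := S21.periodMap_smul (N := M) 0 (0 : CuspForm (Gamma0 M) 2)
        simpa using this
      rw [this, map_zero])).1
  have h2 : qCoeff g 1 = 0 := by
    rw [← coe_levelUp hNM g, h1]
    have := S49.qc_smul (N := M) (k := 2) 0 0 1
    simpa using this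
  rw [hg.qCoeff_one] at h2
  exact one_ne_zero h2

/-- The weak Steinberg contract for a normalized eigenform with `a_q² = 1`. -/
theorem steinbergAtQ_of_eigenform {N M p q : ℕ} [NeZero M] [NeZero q] (hNM : N ∣ M)
    {g : CuspForm (Gamma0 N) 2} (hg : g.IsNormalizedEigenform)
    (hp : p.Prime) (hq : q.Prime) (hqp : q ≠ p) (hqN : q ∣ N) (haq : qCoeff g q ^ 2 = 1)
    (𝒜 : AnFamily M p) (hAU : AnU 𝒜 q hq (hqN.trans hNM)) (hes : EsElt 𝒜) (hB : GoalB M q)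
    (Rg : Subring ℂ) {O : Type} [CommRing O] (iota : Rg →+* O) (al : ℕ → O) (B : Finset ℕ)
    (hal : ∀ ℓ : ℕ, ℓ.Prime → ℓ ∉ B → ∃ h : qCoeff g ℓ ∈ Rg, iota ⟨qCoeff g ℓ, h⟩ = al ℓ) :
    SteinbergAtQ p q O al := by
  obtain ⟨a, ha, haq'⟩ : ∃ a : ℤ, (a = 1 ∨ a = -1) ∧ qCoeff g q = (a : ℂ) := by
    rcases sq_eq_one_iff.1 haq with h | h
    · exact ⟨1, Or.inl rfl, by simpa using h⟩
    · exact ⟨-1, Or.inr rfl, by simpa using h⟩
  refine steinbergAtQ_of_period hp hq hqp (hqN.trans hNM) 𝒜 hAU hes hB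
    (periodMap M (levelUp hNM g)) (S21.periodMap_mem_parabolicHoms _)
    (periodMap_levelUp_ne_zero hNM hg) (fun ℓ => qCoeff g ℓ) ?_ a ha ?_ Rg iota al B hal
  · intro ℓ hℓ hℓM
    rw [heckeCoh_eq_cohT M hℓ hℓM, ← periodMap_heckeTLin, heckeTLin_levelUp hNM hg hℓ hℓM,
      S21.periodMap_smul]
  · rw [← periodMap_heckeULin, heckeULin_levelUp hNM hg hq hqN, S21.periodMap_smul, haq']

/-- **S35 from the block contracts.** -/
theorem S35_of_contracts (hcheb : WeakChebotarev) (hS30 : S30Statement)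
    {M : ℕ} [NeZero M] {g : CuspForm (CongruenceSubgroup.Gamma0 M) 2} (hg : g.IsNewform)
    (lam : ℕ) [Fact lam.Prime]
    (S : Finset ℕ)
    (O' : Type) [CommRing O'] [IsDomain O'] [IsDiscreteValuationRing O']
    [IsAdicComplete (IsLocalRing.maximalIdeal O') O'] [Finite (IsLocalRing.ResidueField O')]
    [CharZero O'] (hlamO' : (lam : O') ∈ IsLocalRing.maximalIdeal O')
    (chig : CuspForm.heckeAlgebra M 2 (↑S : Set ℕ) →+* ℂ)
    (hchig : ∀ (ℓ : ℕ) (hℓ : ℓ.Prime) (hℓM : ¬ ℓ ∣ M) (hℓS : ℓ ∉ (↑S : Set ℕ)),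
      chig (CuspForm.heckeAlgebra.T hℓ hℓM hℓS) = ModularFormClass.qCoeff g ℓ)
    (iota : chig.range →+* O')
    (hlamS : lam ∈ S) (hMS : ∀ q : ℕ, q.Prime → q ∣ M → q ∈ S)
    (hT3 : ∀ q : ℕ, q.Prime → q ∣ M → ¬ q ^ 2 ∣ M → qCoeff g q ^ 2 = 1)
    (hgeo : ∀ (q : ℕ) (hq : q.Prime), q ≠ lam → ∀ hqM : q ∣ M, ¬ q ^ 2 ∣ M →
      ∃ (M₁ : ℕ) (_ : NeZero M₁) (_ : NeZero q) (h : M ∣ M₁) (𝒜 : AnFamily M₁ lam),
        AnU 𝒜 q hq (hqM.trans h) ∧ EsElt 𝒜 ∧ GoalB M₁ q) :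
    ∃ (O'' : Type) (_ : CommRing O'') (_ : IsDomain O'') (_ : IsDiscreteValuationRing O'')
      (_ : IsAdicComplete (IsLocalRing.maximalIdeal O'') O'') (_ : Finite (IsLocalRing.ResidueField O''))
      (_ : CharZero O'') (_ : Algebra O' O'') (_ : Module.Finite O' O'') (_ : IsLocalHom (algebraMap O' O'')),
      Function.Injective (algebraMap O' O'') ∧
      ∃ ρ : GaloisRepAdic O'',
        (∀ (ℓ : ℕ) (hℓ : ℓ.Prime) (hℓM : ¬ ℓ ∣ M) (hℓS : ℓ ∉ (↑S : Set ℕ)),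
          ∀ A : ValuationSubring (AlgebraicClosure ℚ), A.LiesOverPrime ℓ →
            ∀ σ : AlgebraicClosure ℚ ≃ₐ[ℚ] AlgebraicClosure ℚ, A.IsFrobeniusAt σ ℓ →
              LinearMap.charpoly (ρ.ρ σ) =
                X ^ 2 - C (algebraMap O' O'' ((iota.comp chig.rangeRestrict) (CuspForm.heckeAlgebra.T hℓ hℓM hℓS))) * X
                  + C ((ℓ : O''))) ∧
        (∀ q : ℕ, q.Prime → q ≠ lam → q ∣ M → ¬ q ^ 2 ∣ M →
          ∀ A : ValuationSubring (AlgebraicClosure ℚ), A.LiesOverPrime q →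
            ∀ σ : AlgebraicClosure ℚ ≃ₐ[ℚ] AlgebraicClosure ℚ, A.IsFrobeniusAt σ q →
              LinearMap.charpoly (ρ.ρ σ) = X ^ 2 - C ((q : O'') + 1) * X + C ((q : O'')) ∨
              LinearMap.charpoly (ρ.ρ σ) = X ^ 2 + C ((q : O'') + 1) * X + C ((q : O''))) := by
  refine S35_of_S30_Q hcheb hS30 lam S O' hlamO' chig iota hlamS hMS ?_
  intro q hq hqlam hqM hq2
  obtain ⟨M₁, _, _, h, 𝒜, hAU, hes, hB⟩ := hgeo q hq hqlam hqM hq2
  refine steinbergAtQ_of_eigenform h hg.1 (Fact.out : lam.Prime) hq hqlam hqM (hT3 q hq hqM hq2)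
    𝒜 hAU hes hB chig.range iota _ (S ∪ M.primeFactors) ?_
  intro ℓ hℓ hmem
  rw [Finset.mem_union, not_or] at hmem
  have hℓM : ¬ ℓ ∣ M := fun hd => hmem.2 (Nat.mem_primeFactors.2 ⟨hℓ, hd, NeZero.ne M⟩)
  have hℓS : ℓ ∉ (↑S : Set ℕ) := by simpa using hmem.1
  refine ⟨⟨_, hchig ℓ hℓ hℓM hℓS⟩, ?_⟩
  rw [eigenFn_eq _ hℓ hℓM hℓS, RingHom.comp_apply]
  congr 1
  exact Subtype.ext (hchig ℓ hℓ hℓM hℓS).symm

end Fermat.Agent.TOR
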