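import Mathlib
import Fermat.Agent.TOR.SteinbergAsm

/-!
# TOR / GoalBFree : `GoalB M q` from the eigen-free relation

`GoalBFree M q` : on all Kummer classes `(σ² - q²)(σ U_q - q)(σ - U_q) = 0`, elementwise.
`goalB_of_free` : `GoalBFree M q` and the stability of `FL Qb M` under `U_q = NmL q` imply `GoalB M q`.
-/

set_option autoImplicit false

open ModularCurve AlgebraicCurve CongruenceSubgroup
open Fermat.Agent.GAL Fermat.Agent.GR.CB

noncomputable section

namespace Fermat.Agent.TOR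

/-- the eigen-free form of GOAL B. -/
def GoalBFree (M q : ℕ) [NeZero q] : Prop :=
  ∀ n : ℕ, n ≠ 0 → ¬ q ∣ n → ∀ u : UU, IsKum Qb M n (u : LaurentSeries Qb) →
    ∀ A : ValuationSubring Qb, A.LiesOverPrime q → ∀ σ : GAL.GQ, A.IsFrobeniusAt σ q →
      galU σ (galU σ (galU σ (nmU q (galU σ u * (nmU q u)⁻¹)) * ((galU σ u * (nmU q u)⁻¹) ^ q)⁻¹))
        * ((galU σ (nmU q (galU σ u * (nmU q u)⁻¹)) * ((galU σ u * (nmU q u)⁻¹) ^ q)⁻¹)
            ^ (q ^ 2))⁻¹ ∈ FLU M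

theorem nmU_galU (q : ℕ) [NeZero q] (σ : GAL.GQ) (u : UU) :
    nmU q (galU σ u) = galU σ (nmU q u) := by
  apply Units.ext
  show NmL Qb q (galS σ (u : LaurentSeries Qb)) = galS σ (NmL Qb q (u : LaurentSeries Qb))
  exact (NmL_coeffMap _ q _).symm

theorem cls_zpow' (M : ℕ) (u : UU) (k : ℤ) : cls M (u ^ k) = k • cls M u := rfl

/-- the linear algebra behind `goalB_of_free`. -/
theorem quarticOp_eq_zero_of_rel {W : Type*} [AddCommGroup W] (S : Module.End ℤ W) (q a : ℤ)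
    (ha : a = 1 ∨ a = -1) (x : W)
    (h : S (S (S (a • S x - a • a • x) - q • (S x - a • x)))
      - (q ^ 2) • (S (a • S x - a • a • x) - q • (S x - a • x)) = 0) :
    quarticOp S q a x = 0 := by
  have key : quarticOp S q a x = a • (S (S (S (a • S x - a • a • x) - q • (S x - a • x)))
      - (q ^ 2) • (S (a • S x - a • a • x) - q • (S x - a • x))) := by
    simp only [quarticOp, pow_two, Module.End.mul_apply, LinearMap.sub_apply,
      Module.End.intCast_apply, map_sub, map_zsmul]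
    rcases ha with rfl | rfl
    · module
    · module
  rw [key, h, smul_zero]

/-- **GB-6** (elementwise): if `U_q [u] = a [u]`, `a = ± 1`, and `(σ² - q²)(σ U_q - q)(σ - U_q) [u] = 0`
then `quarticOp σ q a [u] = 0`. -/
theorem quarticOp_cls_eq_zero {M q : ℕ} [NeZero q] (hNm : ∀ f ∈ FLU M, nmU q f ∈ FLU M)
    (σ : GAL.GQ) (a : ℤ) (ha : a = 1 ∨ a = -1) (u : UU) (hU : nmU q u * (u ^ a)⁻¹ ∈ FLU M)
    (h3 : galU σ (galU σ (galU σ (nmU q (galU σ u * (nmU q u)⁻¹))
          * ((galU σ u * (nmU q u)⁻¹) ^ q)⁻¹))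
        * ((galU σ (nmU q (galU σ u * (nmU q u)⁻¹)) * ((galU σ u * (nmU q u)⁻¹) ^ q)⁻¹)
            ^ (q ^ 2))⁻¹ ∈ FLU M) :
    quarticOp (gA M σ) q a (cls M u) = 0 := by
  rw [← cls_eq_zero_iff] at h3 hU
  set x := cls M u with hx
  -- the class of `U u`
  have h1 : cls M (nmU q u) = a • x := by
    rw [cls_mul, cls_inv, cls_zpow'] at hU
    exact sub_eq_zero.mp (by rw [sub_eq_add_neg]; exact hU)
  -- the class of `U U u`
  have h2 : cls M (nmU q (nmU q u)) = a • a • x := by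
    have e : nmU q (nmU q u) = nmU q (nmU q u * (u ^ a)⁻¹) * (nmU q u) ^ a := by
      rw [map_mul, map_inv, map_zpow, inv_mul_cancel_right]
    rw [e, cls_mul, cls_zpow', h1,
      cls_eq_zero_iff.mpr (hNm _ (cls_eq_zero_iff.mp hU)), zero_add]
  apply quarticOp_eq_zero_of_rel _ _ _ ha
  have e1 : cls M (galU σ u * (nmU q u)⁻¹) = gA M σ x - a • x := by
    rw [cls_mul, cls_inv, h1, ← gA_cls, sub_eq_add_neg]
  have e2 : cls M (nmU q (galU σ u * (nmU q u)⁻¹)) = a • gA M σ x - a • a • x := by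
    rw [map_mul, map_inv, nmU_galU, cls_mul, cls_inv, h2, ← gA_cls, h1, map_zsmul, sub_eq_add_neg]
  have e3 : cls M (galU σ (nmU q (galU σ u * (nmU q u)⁻¹)) * ((galU σ u * (nmU q u)⁻¹) ^ q)⁻¹)
      = gA M σ (a • gA M σ x - a • a • x) - (q : ℤ) • (gA M σ x - a • x) := by
    rw [cls_mul, cls_inv, cls_pow, ← gA_cls, e2, e1, natCast_zsmul, ← sub_eq_add_neg]
  rw [cls_mul, cls_inv, cls_pow, ← gA_cls, ← gA_cls, e3] at h3
  rw [sub_eq_add_neg, ← h3]
  congr 2

theorem goalB_of_free {M q : ℕ} [NeZero q] (hNm : ∀ f ∈ FLU M, nmU q f ∈ FLU M)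
    (h : GoalBFree M q) : GoalB M q := by
  intro n hn hqn a ha u hu hU A hA σ hσ
  exact quarticOp_cls_eq_zero hNm σ a ha u hU (h n hn hqn u hu A hA σ hσ)

end Fermat.Agent.TOR
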