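import Mathlib
import Fermat.Agent.TOR.Adic34
import Fermat.Agent.TOR.CBKSys

/-!
# TOR : S34 from the block contracts

`GoalAt M q` : the geometric contract (unipotence of inertia at `q ‖ M` on Kummer classes, elementwise).
`S34_of_contractsAt` : weak Chebotarev + `LevelRes N M` + `AnFamily M p` + `EsElt` + `HKInput M` +
`GoalAt M q` imply the conclusion of S34.
-/

set_option autoImplicit false

open ModularCurve AlgebraicCurve CongruenceSubgroup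
open Fermat.Agent.GAL Fermat.Agent.GR.CB
open scoped MatrixGroups

noncomputable section

namespace Fermat.Agent.TOR

open Fermat.Agent.GR.Adic IsLocalRing Module Polynomial
open Fermat.Agent.GR.Asm (WeakChebotarev)

local notation "Qbar'" => AlgebraicClosure ℚ

/-- **GOAL A** (geometric contract of TOR for S34): for `τ` in the inertia group at `q` and every
everywhere unramified Kummer element `u` of exponent `n` prime to `q` at level `M`, the class of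
`(τ - 1)² u` is trivial. -/
def GoalAt (M q : ℕ) : Prop :=
  ∀ n : ℕ, n ≠ 0 → ¬ q ∣ n → ∀ u : UU, IsKum Qb M n (u : LaurentSeries Qb) →
    ∀ A : ValuationSubring Qb, A.LiesOverPrime q → ∀ τ ∈ A.inertiaSubgroupIn ℚ,
      galU τ (galU τ u) * u * ((galU τ u) ^ 2)⁻¹ ∈ FLU M

/-- the former name of `GoalAt` (both names may be used). -/
abbrev GoalA (M q : ℕ) : Prop := GoalAt M q

/-- S34 from a `KSys` at level `M` with a faithful action of the Hecke algebra of level `M`. -/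
theorem S34_of_kSys (hcheb : WeakChebotarev)
    {𝒪 : Type} [CommRing 𝒪] [IsDomain 𝒪] [IsDiscreteValuationRing 𝒪]
    [IsAdicComplete (maximalIdeal 𝒪) 𝒪]
    {p : ℕ} (hp : p.Prime) (hp𝒪 : (p : 𝒪) ∈ maximalIdeal 𝒪)
    {N : ℕ} [NeZero N] {S : Finset ℕ}
    {θ : CuspForm.heckeAlgebra N 2 (↑S : Set ℕ) →+* ResidueField 𝒪}
    {T : Type} [CommRing T] [IsLocalRing T] [IsNoetherianRing T]
    [IsAdicComplete (maximalIdeal T) T] [Algebra 𝒪 T] [IsLocalHom (algebraMap 𝒪 T)]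
    [Module.Finite 𝒪 T] [Module.Free 𝒪 T]
    (H : CuspForm.HeckeGaloisRepDatum N (↑S : Set ℕ) 𝒪 θ T)
    (q : ℕ) (hq : q.Prime) (hqp : q ≠ p)
    {M : ℕ} [NeZero M] (hLR : LevelRes N M)
    {bad₀ : Finset ℕ} (hpbad₀ : p ∈ bad₀) (K : KSys p (↑bad₀ : Set ℕ))
    (ι₀ : CuspForm.heckeAlgebra M 2 (badSet M) →+* Module.End ℤ K.L0)
    (hι₀ : Function.Injective ι₀)
    (hιT : ∀ (ℓ : ℕ) (hℓ : ℓ.Prime) (hℓM : ¬ ℓ ∣ M), ℓ ∉ bad₀ →
      ι₀ (CuspForm.heckeAlgebra.T hℓ hℓM (not_mem_badSet hℓM)) = K.T0 ℓ)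
    (hU : ∀ P : ValuationSubring Qbar', P.LiesOverPrime q → ∀ τ ∈ P.inertiaSubgroupIn ℚ,
      (K.act τ - 1) * (K.act τ - 1) = 0) :
    H.ρ.IsUnipotentOnInertiaAt q := by
  classical
  intro P hP g hg
  have hpT : (p : T) ∈ maximalIdeal T := by
    have h1 : (p : T) = algebraMap 𝒪 T (p : 𝒪) := (map_natCast _ _).symm
    rw [h1]
    exact map_nonunit (algebraMap 𝒪 T) _ hp𝒪
  set S' : Set ℕ := (↑S : Set ℕ) ∪ badSet M with hS'
  obtain ⟨r, hr⟩ := hLR (↑S : Set ℕ) S' Set.subset_union_left Set.subset_union_right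
  set bad : Finset ℕ := bad₀ ∪ (S ∪ N.primeFactors ∪ M.primeFactors) with hbad
  have hb : ∀ ℓ : ℕ, ℓ.Prime → ℓ ∉ bad → ¬ ℓ ∣ N ∧ ℓ ∉ (↑S : Set ℕ) ∧ ¬ ℓ ∣ M ∧ ℓ ∉ bad₀ := by
    intro ℓ hℓ hmem
    rw [hbad, Finset.mem_union, Finset.mem_union, Finset.mem_union, not_or, not_or, not_or] at hmem
    refine ⟨fun hd => hmem.2.1.2 (Nat.mem_primeFactors.2 ⟨hℓ, hd, NeZero.ne N⟩), ?_,
      fun hd => hmem.2.2 (Nat.mem_primeFactors.2 ⟨hℓ, hd, NeZero.ne M⟩), hmem.1⟩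
    simpa using hmem.2.1.1
  have hb' : ∀ ℓ : ℕ, ℓ.Prime → ℓ ∉ bad → ℓ ∉ S' := by
    intro ℓ hℓ hmem
    obtain ⟨-, h2, h3, -⟩ := hb ℓ hℓ hmem
    exact fun h => h.elim h2 (not_mem_badSet h3)
  have hsub : (↑bad₀ : Set ℕ) ⊆ (↑bad : Set ℕ) := by
    intro x hx
    rw [hbad]
    simp only [Finset.coe_union, Set.mem_union]
    exact Or.inl hx
  let incl : CuspForm.heckeAlgebra M 2 S' →+* CuspForm.heckeAlgebra M 2 (badSet M) :=
    (Subalgebra.inclusion (CuspForm.heckeAlgebra_mono (N := M) (k := 2)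
      (Set.subset_union_right : badSet M ⊆ S'))).toRingHom
  have hincl : Function.Injective incl := Subalgebra.inclusion_injective _
  let ι : CuspForm.heckeAlgebra M 2 S' →+* Module.End ℤ (K.mono hsub).L0 := ι₀.comp incl
  let τ : ℕ → CuspForm.heckeAlgebra M 2 S' := fun ℓ =>
    if h : ℓ.Prime ∧ ¬ ℓ ∣ M ∧ ℓ ∉ S' then CuspForm.heckeAlgebra.T h.1 h.2.1 h.2.2 else 0
  have hτdef : ∀ (ℓ : ℕ) (hℓ : ℓ.Prime) (hℓM : ¬ ℓ ∣ M) (hℓS' : ℓ ∉ S'),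
      τ ℓ = CuspForm.heckeAlgebra.T hℓ hℓM hℓS' := by
    intro ℓ hℓ hℓM hℓS'
    exact dif_pos ⟨hℓ, hℓM, hℓS'⟩
  have h := charpoly_eq_of_kSys hcheb hp (bad := bad) (Finset.mem_union_left _ hpbad₀)
    (K.mono hsub) ι τ
    (by
      intro ℓ hℓ hmem
      obtain ⟨-, -, hM, hb0⟩ := hb ℓ hℓ hmem
      rw [hτdef ℓ hℓ hM (hb' ℓ hℓ hmem)]
      exact hιT ℓ hℓ hM hb0)
    hpT (H.π.comp r)
    (by
      intro t ht
      have : t = 0 := hincl (hι₀ (by rw [map_zero, map_zero]; exact ht))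
      rw [this, map_zero])
    H.ρ
    (by
      intro ℓ hℓ hmem A hA σ hσ
      obtain ⟨hN, hS0, hM, -⟩ := hb ℓ hℓ hmem
      rw [hτdef ℓ hℓ hM (hb' ℓ hℓ hmem), RingHom.comp_apply, hr ℓ hℓ hM (hb' ℓ hℓ hmem) hN hS0]
      exact H.charpoly_frob ℓ hℓ hN hS0 A hA σ hσ)
    g 1 2
    (by
      intro m ζ hζ
      rw [pow_one]
      exact tor_inertia_root P hp hq hqp hP g hg m hζ)
    (by
      intro m x
      exact tor_add_inv_of_unipotent K.act g (hU P hP g hg) _)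
  rw [h]
  simp only [Int.cast_ofNat, Nat.cast_one, map_one]
  rw [show (Polynomial.C (2 : T) : T[X]) = 2 from map_ofNat Polynomial.C 2]
  ring

/-- Unipotence on `SS 𝒜` from `GoalAt`. -/
theorem actS_unipotent {M p q : ℕ} (hp : p.Prime) (hq : q.Prime) (hqp : q ≠ p)
    (𝒜 : AnFamily M p) (hA : GoalAt M q)
    (P : ValuationSubring Qb) (hP : P.LiesOverPrime q) (τ : GAL.GQ) (hτ : τ ∈ P.inertiaSubgroupIn ℚ) :
    (actS 𝒜 τ - 1) * (actS 𝒜 τ - 1) = 0 := by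
  ext x
  obtain ⟨u, hu, hx⟩ := exists_cls_eq 𝒜 x
  obtain ⟨m, hm⟩ := exists_isKum_of_mem_VV 𝒜 hu
  have hqn : ¬ q ∣ p ^ m := fun h =>
    hqp ((Nat.prime_dvd_prime_iff_eq hq hp).1 (hq.dvd_of_dvd_pow h))
  have h1 := hA (p ^ m) (pow_ne_zero _ hp.ne_zero) hqn u hm P hP τ hτ
  rw [← cls_eq_zero_iff, cls_mul, cls_mul, cls_inv, cls_pow] at h1
  simp only [LinearMap.sub_apply, Module.End.mul_apply, Module.End.one_apply, map_sub,
    LinearMap.zero_apply, Submodule.coe_sub, Submodule.coe_zero, coe_actS]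
  rw [← hx, gA_cls, gA_cls, ← h1]
  abel

/-- **S34 from the block contracts.** -/
theorem S34_of_contractsAt (hcheb : WeakChebotarev)
    {𝒪 : Type} [CommRing 𝒪] [IsDomain 𝒪] [IsDiscreteValuationRing 𝒪]
    [IsAdicComplete (maximalIdeal 𝒪) 𝒪]
    {p : ℕ} (hp : p.Prime) (hp𝒪 : (p : 𝒪) ∈ maximalIdeal 𝒪)
    {N : ℕ} [NeZero N] {S : Finset ℕ}
    {θ : CuspForm.heckeAlgebra N 2 (↑S : Set ℕ) →+* ResidueField 𝒪}
    {T : Type} [CommRing T] [IsLocalRing T] [IsNoetherianRing T]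
    [IsAdicComplete (maximalIdeal T) T] [Algebra 𝒪 T] [IsLocalHom (algebraMap 𝒪 T)]
    [Module.Finite 𝒪 T] [Module.Free 𝒪 T]
    (H : CuspForm.HeckeGaloisRepDatum N (↑S : Set ℕ) 𝒪 θ T)
    (q : ℕ) (hq : q.Prime) (hqp : q ≠ p)
    {M : ℕ} [NeZero M] (hLR : LevelRes N M)
    (𝒜 : AnFamily M p) (hes : EsElt 𝒜) (hHK : HKInput M) (hA : GoalAt M q) :
    H.ρ.IsUnipotentOnInertiaAt q := by
  classical
  obtain ⟨ι, hιinj, hι⟩ := hHK.exists_ι
  have := hHK.free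
  have := hHK.finite
  have hMp : M * p ≠ 0 := Nat.mul_ne_zero (NeZero.ne M) hp.ne_zero
  have hbad : ∀ ℓ : ℕ, ℓ.Prime → ℓ ∉ (↑((M * p).primeFactors) : Set ℕ) → ¬ ℓ ∣ M * p := by
    intro ℓ hℓ hmem hd
    exact hmem (by simpa using Nat.mem_primeFactors.2 ⟨hℓ, hd, hMp⟩)
  let T0 : ℕ → Module.End ℤ (LL0 M) := fun ℓ => if h : ℓ.Prime ∧ ¬ ℓ ∣ M then
      ι (CuspForm.heckeAlgebra.T h.1 h.2 (not_mem_badSet h.2)) else 0
  let K : KSys p (↑((M * p).primeFactors) : Set ℕ) :=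
    cbKSys hp 𝒜 hes _ hbad (LL0 M) T0 LinearMap.id
      (fun n x y h => ⟨y, h⟩)
      (fun ℓ hℓ hb x => by
        have hℓM : ¬ ℓ ∣ M := fun h => hbad ℓ hℓ hb (Dvd.dvd.mul_right h p)
        show ((T0 ℓ x : LL0 M) : Additive (Gamma0 M) →+ ℤ) = _
        rw [show T0 ℓ = ι (CuspForm.heckeAlgebra.T hℓ hℓM (not_mem_badSet hℓM)) from
          dif_pos ⟨hℓ, hℓM⟩]
        exact hι ℓ hℓ hℓM x)
  refine S34_of_kSys hcheb hp hp𝒪 H q hq hqp hLR
    (Nat.mem_primeFactors.2 ⟨hp, Dvd.intro_left M rfl, hMp⟩) K ι hιinj ?_ ?_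
  · intro ℓ hℓ hℓM _
    show _ = T0 ℓ
    exact (show T0 ℓ = ι (CuspForm.heckeAlgebra.T hℓ hℓM (not_mem_badSet hℓM)) from
      dif_pos ⟨hℓ, hℓM⟩).symm
  · intro P hP τ hτ
    exact actS_unipotent hp hq hqp 𝒜 hA P hP τ hτ

end Fermat.Agent.TOR
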