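import Mathlib
import Fermat.Agent.GR.Adic.Final
import Fermat.Agent.TOR.S34Asm
import Fermat.Agent.TOR.S35Asm
import Fermat.Agent.TOR.AnU.Main
import Fermat.Agent.TOR.NF.Main

/-!
# TOR / Final : S34 and S35 (verbatim) from `GAL.KeyLemmaStatement` and the geometric goals

* `GoalAStatement` : `GoalAt M q` for all `q ‖ M` with `M / q` admissible
* `GoalBStatement` : `GoalB M q`  for all `q ‖ M` with `M / q` admissible
* `S34_of_goals : KeyLemmaStatement → GoalAStatement → (S34 verbatim)`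
* `S35_of_goals : KeyLemmaStatement → GoalBStatement → (S35 verbatim)`
Everything else (CHEB, AN + DESC, AnU, HK, LevelRes, S30, T3 = `a_q² = 1`) is plugged in.
-/

set_option autoImplicit false

open ModularCurve AlgebraicCurve CongruenceSubgroup IsLocalRing Polynomial
open Fermat.Agent.GAL Fermat.Agent.GR.CB

noncomputable section

namespace Fermat.Agent.TOR

/-- the geometric contract of TOR for S34. -/
def GoalAStatement : Prop :=
  ∀ M q : ℕ, M ≠ 0 → q.Prime → q ∣ M → ¬ q ^ 2 ∣ M → AdmLevel (M / q) → GoalAt M q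

/-- the geometric contract of TOR for S35. -/
def GoalBStatement : Prop :=
  ∀ (M q : ℕ) [NeZero q], M ≠ 0 → q.Prime → q ∣ M → ¬ q ^ 2 ∣ M → AdmLevel (M / q) → GoalB M q

/-- arithmetic of the auxiliary level `c N`, `c ∈ {4, 9}` prime to `q`. -/
theorem tor_aux_level {N q : ℕ} (hN : N ≠ 0) (hq : q.Prime) (hqN : q ∣ N) (hq2 : ¬ q ^ 2 ∣ N) :
    ∃ M : ℕ, M ≠ 0 ∧ N ∣ M ∧ AdmLevel M ∧ q ∣ M ∧ ¬ q ^ 2 ∣ M ∧ AdmLevel (M / q) := by
  have key : ∀ c : ℕ, c ≠ 0 → Nat.Coprime q c → (∀ k : ℕ, c ∣ k → AdmLevel k) →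
      ∃ M : ℕ, M ≠ 0 ∧ N ∣ M ∧ AdmLevel M ∧ q ∣ M ∧ ¬ q ^ 2 ∣ M ∧ AdmLevel (M / q) := by
    intro c hc0 hc hadm
    refine ⟨c * N, Nat.mul_ne_zero hc0 hN, Dvd.intro_left c rfl, hadm _ (Dvd.intro N rfl),
      Dvd.dvd.mul_left hqN c, fun h => hq2 ((Nat.Coprime.pow_left 2 hc).dvd_of_dvd_mul_left h),
      hadm _ ?_⟩
    obtain ⟨k, rfl⟩ := hqN
    rw [show c * (q * k) = q * (c * k) by ring, Nat.mul_div_cancel_left _ hq.pos]
    exact Dvd.intro k rfl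
  by_cases h2 : q = 2
  · exact key 9 (by norm_num) (by rw [h2]; norm_num) (fun k hk => Or.inr hk)
  · exact key 4 (by norm_num)
      (Nat.Coprime.pow_right 2 ((Nat.coprime_primes hq Nat.prime_two).2 h2)) (fun k hk => Or.inl hk)

/-- **S34 (verbatim) from the key lemma and GOAL A.** -/
theorem S34_of_goals (hK : KeyLemmaStatement) (hGA : GoalAStatement)
    {𝒪 : Type} [CommRing 𝒪] [IsDomain 𝒪] [IsDiscreteValuationRing 𝒪]
    [IsAdicComplete (maximalIdeal 𝒪) 𝒪] [Finite (ResidueField 𝒪)] [CharZero 𝒪]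
    {p : ℕ} (hp : p.Prime) (hp𝒪 : (p : 𝒪) ∈ maximalIdeal 𝒪)
    {N : ℕ} [NeZero N] {S : Finset ℕ} (_hpS : p ∈ S) (_hNS : ∀ q : ℕ, q.Prime → q ∣ N → q ∈ S)
    {θ : CuspForm.heckeAlgebra N 2 (↑S : Set ℕ) →+* ResidueField 𝒪}
    {T : Type} [CommRing T] [IsLocalRing T] [IsNoetherianRing T]
    [IsAdicComplete (maximalIdeal T) T] [Algebra 𝒪 T] [IsLocalHom (algebraMap 𝒪 T)]
    [Module.Finite 𝒪 T] [Module.Free 𝒪 T]
    (H : CuspForm.HeckeGaloisRepDatum N (↑S : Set ℕ) 𝒪 θ T)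
    (q : ℕ) (hq : q.Prime) (hqp : q ≠ p) (hqN : q ∣ N) (hq2 : ¬ q ^ 2 ∣ N) :
    H.ρ.IsUnipotentOnInertiaAt q := by
  obtain ⟨M, hM0, hNM, hM, hqM, hq2M, hMq⟩ := tor_aux_level (NeZero.ne N) hq hqN hq2
  have : NeZero M := ⟨hM0⟩
  exact S34_of_contractsAt Fermat.Agent.GAL.Cheb.weakChebotarev_asm hp hp𝒪 H q hq hqp
    (Fermat.Agent.GR.Adic.levelRes N M hNM) (AN.anFamily M p hp.ne_zero hM)
    (esElt_of_keyLemma hM _ hK) (Fermat.Agent.GAL.HK.hkInput M) (hGA M q hM0 hq hqM hq2M hMq)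

/-- **S35 (verbatim) from the key lemma and GOAL B.** -/
theorem S35_of_goals (hK : KeyLemmaStatement) (hGB : GoalBStatement)
    {M : ℕ} [NeZero M] {g : CuspForm (CongruenceSubgroup.Gamma0 M) 2} (hg : g.IsNewform)
    (lam : ℕ) [Fact lam.Prime]
    (S : Finset ℕ)
    (O' : Type) [CommRing O'] [IsDomain O'] [IsDiscreteValuationRing O']
    [IsAdicComplete (IsLocalRing.maximalIdeal O') O'] [Finite (IsLocalRing.ResidueField O')]
    [CharZero O'] (hlamO' : (lam : O') ∈ IsLocalRing.maximalIdeal O')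
    (chig : CuspForm.heckeAlgebra M 2 (↑S : Set ℕ) →+* ℂ)
    (hchig : ∀ (ℓ : ℕ) (hℓ : ℓ.Prime) (hℓM : ¬ ℓ ∣ M) (hℓS : ℓ ∉ (↑S : Set ℕ)),
      chig (CuspForm.heckeAlgebra.T hℓ hℓM hℓS) = ModularFormClass.qCoeff g ℓ)
    (iota : chig.range →+* O')
    (hlamS : lam ∈ S) (hMS : ∀ q : ℕ, q.Prime → q ∣ M → q ∈ S)
    :
    ∃ (O'' : Type) (_ : CommRing O'') (_ : IsDomain O'') (_ : IsDiscreteValuationRing O'')
      (_ : IsAdicComplete (IsLocalRing.maximalIdeal O'') O'') (_ : Finite (IsLocalRing.ResidueField O''))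
      (_ : CharZero O'') (_ : Algebra O' O'') (_ : Module.Finite O' O'') (_ : IsLocalHom (algebraMap O' O'')),
      Function.Injective (algebraMap O' O'') ∧
      ∃ ρ : GaloisRepAdic O'',
        (∀ (ℓ : ℕ) (hℓ : ℓ.Prime) (hℓM : ¬ ℓ ∣ M) (hℓS : ℓ ∉ (↑S : Set ℕ)),
          ∀ A : ValuationSubring (AlgebraicClosure ℚ), A.LiesOverPrime ℓ →
            ∀ σ : AlgebraicClosure ℚ ≃ₐ[ℚ] AlgebraicClosure ℚ, A.IsFrobeniusAt σ ℓ →
              LinearMap.charpoly (ρ.ρ σ) =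
                X ^ 2 - C (algebraMap O' O'' ((iota.comp chig.rangeRestrict) (CuspForm.heckeAlgebra.T hℓ hℓM hℓS))) * X
                  + C ((ℓ : O''))) ∧
        (∀ q : ℕ, q.Prime → q ≠ lam → q ∣ M → ¬ q ^ 2 ∣ M →
          ∀ A : ValuationSubring (AlgebraicClosure ℚ), A.LiesOverPrime q →
            ∀ σ : AlgebraicClosure ℚ ≃ₐ[ℚ] AlgebraicClosure ℚ, A.IsFrobeniusAt σ q →
              LinearMap.charpoly (ρ.ρ σ) = X ^ 2 - C ((q : O'') + 1) * X + C ((q : O'')) ∨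
              LinearMap.charpoly (ρ.ρ σ) = X ^ 2 + C ((q : O'') + 1) * X + C ((q : O''))) := by
  refine S35_of_contracts Fermat.Agent.GAL.Cheb.weakChebotarev_asm
    (Fermat.Agent.GR.Adic.S30_of_keyLemma hK) hg lam S O' hlamO' chig hchig iota hlamS hMS
    (fun q hq hqM hq2 => NF.newform_aq_sq hg hq hqM hq2) ?_
  intro q hq _ hqM hq2
  obtain ⟨M₁, hM0, hNM, hM, hqM₁, hq2M, hMq⟩ := tor_aux_level (NeZero.ne M) hq hqM hq2
  have : NeZero M₁ := ⟨hM0⟩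
  have : NeZero q := ⟨hq.ne_zero⟩
  exact ⟨M₁, inferInstance, inferInstance, hNM,
    AN.anFamily M₁ lam (Fact.out : lam.Prime).ne_zero hM,
    anU_anFamily M₁ lam _ hM hq _, esElt_of_keyLemma hM _ hK, hGB M₁ q hM0 hq hqM₁ hq2M hMq⟩

end Fermat.Agent.TOR
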