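import Fermat.Agent.TOR.Final
import Fermat.Agent.TOR.T1C.Main
import Fermat.Agent.TOR.GB.GoalA
import Fermat.Agent.GAL.KLC.Main

/-!
# TOR : the geometric contract `GoalAStatement` (unconditional), and the concrete toric key lemma.
-/

set_option autoImplicit false

open ModularCurve AlgebraicCurve

noncomputable section

namespace Fermat.Agent.TOR

open Fermat.Agent.GAL Fermat.Agent.GAL.KLC

/-- the concrete toric key lemma, unconditional. -/
theorem kl2C (M₁ q : ℕ) [NeZero M₁] [NeZero q] (hM : AdmLevel M₁) (hq : q.Prime)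
    (hqM : ¬ q ∣ M₁) : GB.KL2C M₁ q :=
  T1C.kl2c M₁ q hq hqM (spansStatement M₁) (riStatement M₁)
    (fun A hA => ctStatement M₁ q hM hq hqM A hA)

/-- the idempotent, unconditional. -/
theorem thetaC (M₁ q : ℕ) [NeZero M₁] [NeZero q] (hM : AdmLevel M₁) (hq : q.Prime)
    (hqM : ¬ q ∣ M₁) : GB.ThetaC M₁ q :=
  T1C.thetaC M₁ q hq hqM (spansStatement M₁) (riStatement M₁)
    (fun A hA => ctStatement M₁ q hM hq hqM A hA)

/-- arithmetic: `M = (M / q) * q`, `q ∤ M / q`. -/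
theorem level_split {M q : ℕ} (hM0 : M ≠ 0) (hqM : q ∣ M) (hq2 : ¬ q ^ 2 ∣ M) :
    M / q ≠ 0 ∧ ¬ q ∣ M / q ∧ M / q * q = M := by
  have h3 : M / q * q = M := Nat.div_mul_cancel hqM
  refine ⟨?_, ?_, h3⟩
  · intro h
    rw [h, zero_mul] at h3
    exact hM0 h3.symm
  · rintro ⟨k, hk⟩
    apply hq2
    refine ⟨k, ?_⟩
    rw [← h3, hk]
    ring

/-- **GOAL A.** -/
theorem goalAStatement : GoalAStatement := by
  intro M q hM0 hq hqM hq2 hAdm
  obtain ⟨h1, h2, h3⟩ := level_split hM0 hqM hq2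
  have : NeZero (M / q) := ⟨h1⟩
  have : NeZero q := ⟨hq.ne_zero⟩
  have h := GB.goalA_of hq h2 (kl2C (M / q) q hAdm hq h2) (thetaC (M / q) q hAdm hq h2)
  rw [h3] at h
  exact h

end Fermat.Agent.TOR
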