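/-
TOR / CoreX : the EXPLICIT geometric core (`GR/CB/Main.lean` only exports `Nonempty (Core M p)`, which
is not enough for S34 / S35: there one has to prove statements about the Galois action on the concrete
Kummer classes).

* `ESElem 𝒜`, `InElem 𝒜` : elementwise Eichler--Shimura / inertia (hypotheses of `nonempty_core_of`)
* `actS_smooth`, `actS_frob`, `kappaS_eq_zero_iff`, `kappaS_hecke` : the fields, as lemmas
* `coreS` : the explicit `Adic.Core M p` (`W = SS 𝒜`, `act = actS 𝒜`, `L0 = LL0 M`, `κ = kappaS 𝒜`)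
* `kSysS` : the explicit `KSys` on a `p`-saturated Hecke stable sublattice `L' ≤ LL0 M`
* `actS_eq_zero_of_elem` … : translation "elementwise relation in `UU` mod `FLU M`" → operators
-/
import Mathlib
import Fermat.Agent.GR.CB.Main
import Fermat.Agent.TOR.Adic34

set_option autoImplicit false

open ModularCurve AlgebraicCurve CongruenceSubgroup
open Fermat.Agent.GAL Fermat.Agent.GR Fermat.Agent.GR.CB
open scoped MatrixGroups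

noncomputable section

namespace Fermat.Agent.TOR.RT

/-- elementwise Eichler--Shimura relation on `VV 𝒜`. -/
def ESElem {M p : ℕ} (𝒜 : AnFamily M p) : Prop :=
  ∀ (ℓ : ℕ) [NeZero ℓ], ℓ.Prime → ¬ ℓ ∣ M * p → ∀ A : ValuationSubring Qb,
    A.LiesOverPrime ℓ → ∀ σ : GAL.GQ, A.IsFrobeniusAt σ ℓ → ∀ u ∈ VV 𝒜,
      galU σ (galU σ u) * u ^ ℓ * (heckeU ℓ (galU σ u))⁻¹ ∈ FLU M

/-- elementwise triviality of inertia on `VV 𝒜`. -/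
def InElem {M p : ℕ} (𝒜 : AnFamily M p) : Prop :=
  ∀ ℓ : ℕ, ℓ.Prime → ¬ ℓ ∣ M * p → ∀ A : ValuationSubring Qb,
    A.LiesOverPrime ℓ → ∀ σ ∈ A.inertiaSubgroupIn ℚ, ∀ u ∈ VV 𝒜, galU σ u * u⁻¹ ∈ FLU M

section Fields

variable {M p : ℕ} (𝒜 : AnFamily M p)

theorem SS_tors (x : SS 𝒜) : ∃ m : ℕ, (p ^ m) • x = 0 := by
  obtain ⟨u, hu, hx⟩ := exists_cls_eq 𝒜 x
  obtain ⟨m, hm⟩ := exists_isKum_of_mem_VV 𝒜 hu
  refine ⟨m, Subtype.ext ?_⟩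
  obtain ⟨-, hf, -⟩ := hm
  show (p ^ m) • (x : AA M) = 0
  rw [← hx, ← cls_pow, cls_eq_zero_iff, mem_FLU, Units.val_pow_eq_pow_val]
  exact hf

theorem actS_smooth (hp : p.Prime) (x : SS 𝒜) :
    ∃ L : IntermediateField ℚ (AlgebraicClosure ℚ), FiniteDimensional ℚ L ∧
      ∀ σ : Adic.GQ, Adic.FixesLevel L σ → actS 𝒜 σ x = x := by
  obtain ⟨u, hu, hx⟩ := exists_cls_eq 𝒜 x
  obtain ⟨m, hm⟩ := exists_isKum_of_mem_VV 𝒜 hu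
  obtain ⟨-, hf, -⟩ := hm
  have hp0 : p ^ m ≠ 0 := pow_ne_zero _ hp.ne_zero
  obtain ⟨L, hL, H⟩ := exists_level_of_pow_mem M hp0 u hf
  refine ⟨L, hL, fun σ hσ => Subtype.ext ?_⟩
  rw [coe_actS, ← hx, gA_cls]
  have h1 := H σ hσ
  rw [← cls_eq_zero_iff, cls_mul, cls_inv] at h1
  exact sub_eq_zero.mp (by rw [sub_eq_add_neg]; exact h1)

theorem TS_actS_commute (ℓ : ℕ) (hℓ : ℓ.Prime) (hℓM : ¬ ℓ ∣ M) (σ : Adic.GQ) :
    Commute (TS 𝒜 ℓ) (actS 𝒜 σ) := by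
  have : NeZero ℓ := ⟨hℓ.ne_zero⟩
  ext x
  obtain ⟨u, hu, hx⟩ := exists_cls_eq 𝒜 x
  rw [Module.End.mul_apply, Module.End.mul_apply, coe_TS 𝒜 ℓ hℓ hℓM, coe_actS, coe_actS,
    coe_TS 𝒜 ℓ hℓ hℓM, ← hx, gA_cls, tA_cls' 𝒜 ℓ hℓ hℓM, tA_cls' 𝒜 ℓ hℓ hℓM, gA_cls]
  congr 1
  apply Units.ext
  rw [coe_heckeU, coe_galU, coe_galU, coe_heckeU, galS_heckeS]

theorem actS_inertia (hin : InElem 𝒜) (ℓ : ℕ) (hℓ : ℓ.Prime) (hℓM : ¬ ℓ ∣ M * p)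
    (A : ValuationSubring (AlgebraicClosure ℚ)) (hA : A.LiesOverPrime ℓ)
    (σ : Adic.GQ) (hσ : σ ∈ A.inertiaSubgroupIn ℚ) : actS 𝒜 σ = 1 := by
  ext x
  obtain ⟨u, hu, hx⟩ := exists_cls_eq 𝒜 x
  rw [coe_actS, ← hx, gA_cls]
  have h1 := hin ℓ hℓ hℓM A hA σ hσ u hu
  rw [← cls_eq_zero_iff, cls_mul, cls_inv] at h1
  rw [Module.End.one_apply, ← hx]
  exact sub_eq_zero.mp (by rw [sub_eq_add_neg]; exact h1)

theorem actS_frob (hes : ESElem 𝒜) (ℓ : ℕ) (hℓ : ℓ.Prime) (hℓM : ¬ ℓ ∣ M * p)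
    (A : ValuationSubring (AlgebraicClosure ℚ)) (hA : A.LiesOverPrime ℓ)
    (σ : Adic.GQ) (hσ : A.IsFrobeniusAt σ ℓ) :
    actS 𝒜 σ * actS 𝒜 σ - TS 𝒜 ℓ * actS 𝒜 σ + (ℓ : Module.End ℤ (SS 𝒜)) = 0 := by
  have : NeZero ℓ := ⟨hℓ.ne_zero⟩
  have hℓM' : ¬ ℓ ∣ M := fun h => hℓM (Dvd.dvd.mul_right h p)
  ext x
  obtain ⟨u, hu, hx⟩ := exists_cls_eq 𝒜 x
  have h1 := hes ℓ hℓ hℓM A hA σ hσ u hu
  rw [← cls_eq_zero_iff, cls_mul, cls_mul, cls_inv, cls_pow] at h1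
  simp only [LinearMap.add_apply, LinearMap.sub_apply, Module.End.mul_apply,
    LinearMap.zero_apply, Submodule.coe_add, Submodule.coe_sub, Submodule.coe_zero, coe_actS,
    coe_TS 𝒜 ℓ hℓ hℓM']
  rw [Module.End.natCast_apply, Submodule.coe_smul_of_tower, ← hx, gA_cls, gA_cls,
    tA_cls' 𝒜 ℓ hℓ hℓM', ← h1]
  abel

theorem kappaS_eq_zero_iff (m : ℕ) (x : LL0 M) :
    kappaS 𝒜 m x = 0 ↔ ∃ y : LL0 M, x = (p ^ m) • y := by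
  rw [← redL_eq_zero_iff, ← psi_eq_zero_iff 𝒜 m, ← coe_kappaS, Submodule.coe_eq_zero]

theorem kappaS_succ (m : ℕ) (x : LL0 M) : p • kappaS 𝒜 (m + 1) x = kappaS 𝒜 m x := by
  apply Subtype.ext
  show p • psi 𝒜 (m + 1) (redL M (p ^ (m + 1)) x) = psi 𝒜 m (redL M (p ^ m) x)
  exact psi_succ 𝒜 m _ _ (fun γ => redL_cast M p m x γ)

/-- Hecke equivariance of `κ`, in terms of `heckeCoh`. -/
theorem kappaS_hecke (ℓ : ℕ) (hℓ : ℓ.Prime) (hℓM : ¬ ℓ ∣ M) (m : ℕ) (x y : LL0 M)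
    (h : (y : Additive (Gamma0 M) →+ ℤ) = heckeCoh M ℓ (x : Additive (Gamma0 M) →+ ℤ)) :
    kappaS 𝒜 m y = TS 𝒜 ℓ (kappaS 𝒜 m x) := by
  apply Subtype.ext
  rw [coe_TS 𝒜 ℓ hℓ hℓM, coe_kappaS, coe_kappaS]
  symm
  apply psi_hecke 𝒜 m ℓ hℓ hℓM
  exact redL_hecke M (p ^ m) ℓ hℓ hℓM x _ h

end Fields

/-! ### the explicit core -/

/-- the embedding of the Hecke algebra provided by `HKInput`. -/
def iotaS {M : ℕ} [NeZero M] (hHK : HKInput M) :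
    CuspForm.heckeAlgebra M 2 (Adic.badSet M) →+* Module.End ℤ (LL0 M) :=
  hHK.exists_ι.choose

theorem iotaS_injective {M : ℕ} [NeZero M] (hHK : HKInput M) : Function.Injective (iotaS hHK) :=
  hHK.exists_ι.choose_spec.1

theorem iotaS_T {M : ℕ} [NeZero M] (hHK : HKInput M) (ℓ : ℕ) (hℓ : ℓ.Prime) (hℓM : ¬ ℓ ∣ M)
    (x : LL0 M) :
    ((iotaS hHK (CuspForm.heckeAlgebra.T hℓ hℓM (Adic.not_mem_badSet hℓM)) x : LL0 M) :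
      Additive (Gamma0 M) →+ ℤ) = heckeCoh M ℓ (x : Additive (Gamma0 M) →+ ℤ) :=
  hHK.exists_ι.choose_spec.2 ℓ hℓ hℓM x

open Classical in
/-- the Hecke operators on `LL0 M`. -/
def T0S {M : ℕ} [NeZero M] (hHK : HKInput M) (ℓ : ℕ) : Module.End ℤ (LL0 M) :=
  if h : ℓ.Prime ∧ ¬ ℓ ∣ M then
    iotaS hHK (CuspForm.heckeAlgebra.T h.1 h.2 (Adic.not_mem_badSet h.2)) else 0

theorem T0S_eq {M : ℕ} [NeZero M] (hHK : HKInput M) (ℓ : ℕ) (hℓ : ℓ.Prime) (hℓM : ¬ ℓ ∣ M) :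
    T0S hHK ℓ = iotaS hHK (CuspForm.heckeAlgebra.T hℓ hℓM (Adic.not_mem_badSet hℓM)) :=
  dif_pos ⟨hℓ, hℓM⟩

theorem coe_T0S {M : ℕ} [NeZero M] (hHK : HKInput M) (ℓ : ℕ) (hℓ : ℓ.Prime) (hℓM : ¬ ℓ ∣ M)
    (x : LL0 M) :
    ((T0S hHK ℓ x : LL0 M) : Additive (Gamma0 M) →+ ℤ)
      = heckeCoh M ℓ (x : Additive (Gamma0 M) →+ ℤ) := by
  rw [T0S_eq hHK ℓ hℓ hℓM]
  exact iotaS_T hHK ℓ hℓ hℓM x

/-- **The explicit geometric core.** -/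
def coreS {M p : ℕ} [NeZero M] (hp : p.Prime) (𝒜 : AnFamily M p) (hes : ESElem 𝒜)
    (hin : InElem 𝒜) (hHK : HKInput M) : Adic.Core M p :=
  letI := hHK.free
  letI := hHK.finite
  { W := SS 𝒜
    tors := SS_tors 𝒜
    act := actS 𝒜
    smooth := actS_smooth 𝒜 hp
    T := TS 𝒜
    T_act := TS_actS_commute 𝒜
    inertia := actS_inertia 𝒜 hin
    frob := actS_frob 𝒜 hes
    L0 := LL0 M
    T0 := T0S hHK
    κ := kappaS 𝒜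
    κ_ker := kappaS_eq_zero_iff 𝒜
    κ_succ := kappaS_succ 𝒜
    κ_T := fun ℓ hℓ hℓM m x => kappaS_hecke 𝒜 ℓ hℓ hℓM m x _ (coe_T0S hHK ℓ hℓ hℓM x)
    ι := iotaS hHK
    ι_inj := iotaS_injective hHK
    ι_T := fun ℓ hℓ hℓM => (T0S_eq hHK ℓ hℓ hℓM).symm }

/-! ### translation of elementwise relations -/

section Elem

variable {M p : ℕ} (𝒜 : AnFamily M p)

/-- an endomorphism of `SS 𝒜` vanishes as soon as it kills all classes `cls u`, `u ∈ VV 𝒜`. -/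
theorem end_eq_zero_of_elem (f : Module.End ℤ (SS 𝒜))
    (h : ∀ (u : UU) (hu : u ∈ VV 𝒜), f ⟨cls M u, mem_SS.mpr ⟨u, hu, rfl⟩⟩ = 0) : f = 0 := by
  ext x
  obtain ⟨u, hu, hx⟩ := exists_cls_eq 𝒜 x
  have : x = ⟨cls M u, mem_SS.mpr ⟨u, hu, rfl⟩⟩ := Subtype.ext hx.symm
  rw [this, h u hu]
  rfl

theorem actS_mk (σ : GAL.GQ) (u : UU) (hu : u ∈ VV 𝒜) :
    actS 𝒜 σ ⟨cls M u, mem_SS.mpr ⟨u, hu, rfl⟩⟩
      = ⟨cls M (galU σ u), mem_SS.mpr ⟨_, galU_mem_VV 𝒜 σ hu, rfl⟩⟩ :=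
  Subtype.ext (by rw [coe_actS]; exact gA_cls M σ u)

/-- **unipotence from the elementwise statement.** -/
theorem actS_unip_of_elem (τ : GAL.GQ)
    (h : ∀ u ∈ VV 𝒜, galU τ (galU τ u) * u * ((galU τ u) ^ 2)⁻¹ ∈ FLU M) :
    (actS 𝒜 τ - 1) * (actS 𝒜 τ - 1) = 0 := by
  apply end_eq_zero_of_elem
  intro u hu
  apply Subtype.ext
  have h1 := h u hu
  rw [← cls_eq_zero_iff, cls_mul, cls_mul, cls_inv, cls_pow] at h1
  simp only [Module.End.mul_apply, LinearMap.sub_apply, Module.End.one_apply, map_sub,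
    Submodule.coe_sub, Submodule.coe_zero, coe_actS, gA_cls]
  rw [← h1]
  abel

end Elem

end Fermat.Agent.TOR.RT
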