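/-
TOR / S34Chain : END-TO-END typechecked chain for S34.

`S34_of_contracts` : the statement of S34, verbatim, from the five block contracts
* `WeakChebotarev`                     (block CHEB)
* `GAL.KeyLemmaStatement`              (block KL)
* `ANContract`                         (blocks AN + DESC : `AnFamily M p` at admissible levels)
* `HKContract`                         (block HK : `HKInput M` at admissible levels)
* `GoalA`                              (project TOR : `(τ - 1)² = 0` on Kummer classes, `q ‖ M`)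
-/
import Mathlib
import Fermat.Agent.TOR.CoreX
import Fermat.Agent.GR.Adic.LevelRes

set_option autoImplicit false

open ModularCurve AlgebraicCurve CongruenceSubgroup IsLocalRing
open Fermat.Agent.GAL Fermat.Agent.GR Fermat.Agent.GR.CB
open Fermat.Agent.GR.Asm (WeakChebotarev)

noncomputable section

namespace Fermat.Agent.TOR.RT

/-- **Contract of the geometric part of TOR (GOAL A)**: for `q ‖ M`, `M / q` admissible, `q ∤ n`, every
`τ` in an inertia group at `q` satisfies `(τ - 1)² = 0` on the Kummer classes of exponent `n`. -/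
def GoalA : Prop :=
  ∀ (M n q : ℕ), M ≠ 0 → q.Prime → q ∣ M → ¬ q ^ 2 ∣ M → AdmLevel (M / q) → ¬ q ∣ n →
    ∀ A : ValuationSubring Qb, A.LiesOverPrime q → ∀ τ ∈ A.inertiaSubgroupIn ℚ,
      ∀ h : LaurentSeries Qb, IsKum Qb M n h →
        galS τ (galS τ h) * h / (galS τ h) ^ 2 ∈ FL Qb M

/-- Contract of the analytic blocks. -/
def ANContract : Prop :=
  ∀ (M p : ℕ) [NeZero M], p.Prime → AdmLevel M → Nonempty (AnFamily M p)

/-- Contract of block HK. -/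
def HKContract : Prop := ∀ (M : ℕ) [NeZero M], AdmLevel M → HKInput M

theorem esElem_of_keyLemma {M p : ℕ} [NeZero M] (hM : AdmLevel M)
    (𝒜 : AnFamily M p) (hK : KeyLemmaStatement) : ESElem 𝒜 := by
  intro ℓ _ hℓ hℓM A hA σ hσ u hu
  have hℓM' : ¬ ℓ ∣ M := fun h => hℓM (Dvd.dvd.mul_right h p)
  obtain ⟨m, hm⟩ := exists_isKum_of_mem_VV 𝒜 hu
  have hd : ¬ ℓ ∣ p ^ m := fun h' => hℓM (Dvd.dvd.mul_left (hℓ.dvd_of_dvd_pow h') M)
  have h1 := es_mem hK (NeZero.ne M) hM hℓ hℓM' hd A hA σ hσ hm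
    (Fermat.Agent.GAL.IsKum.heckeS M ℓ hℓ hℓM' (hm.galS σ))
  rw [mem_FLU]
  simpa [div_eq_mul_inv] using h1

theorem inElem_of_keyLemma {M p : ℕ} [NeZero M] (hM : AdmLevel M)
    (𝒜 : AnFamily M p) (hK : KeyLemmaStatement) : InElem 𝒜 := by
  intro ℓ hℓ hℓM A hA σ hσ u hu
  have hℓM' : ¬ ℓ ∣ M := fun h => hℓM (Dvd.dvd.mul_right h p)
  obtain ⟨m, hm⟩ := exists_isKum_of_mem_VV 𝒜 hu
  have hd : ¬ ℓ ∣ p ^ m := fun h' => hℓM (Dvd.dvd.mul_left (hℓ.dvd_of_dvd_pow h') M)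
  have h1 := inertia_mem hK (NeZero.ne M) hM hℓ hℓM' hd A hA σ hσ hm
  rw [mem_FLU]
  simpa [div_eq_mul_inv] using h1

/-- arithmetic of the auxiliary level `M = c N`, `c ∈ {4, 9}` prime to `q`. -/
theorem aux_level {N q c : ℕ} (hq : q.Prime) (hqN : q ∣ N) (hq2 : ¬ q ^ 2 ∣ N)
    (hc : Nat.Coprime q c) :
    q ∣ c * N ∧ ¬ q ^ 2 ∣ c * N ∧ c ∣ c * N / q := by
  refine ⟨Dvd.dvd.mul_left hqN c, fun h => hq2 ?_, ?_⟩
  · exact (Nat.Coprime.pow_left 2 hc).dvd_of_dvd_mul_left h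
  · obtain ⟨k, rfl⟩ := hqN
    rw [show c * (q * k) = q * (c * k) by ring, Nat.mul_div_cancel_left _ hq.pos]
    exact Dvd.intro k rfl

/-- S34 at an auxiliary level `M = c N`. -/
theorem S34_of_contracts_aux (hcheb : WeakChebotarev) (hK : KeyLemmaStatement) (hAN : ANContract)
    (hHK : HKContract) (hGA : GoalA)
    {𝒪 : Type} [CommRing 𝒪] [IsDomain 𝒪] [IsDiscreteValuationRing 𝒪]
    [IsAdicComplete (maximalIdeal 𝒪) 𝒪]
    {p : ℕ} (hp : p.Prime) (hp𝒪 : (p : 𝒪) ∈ maximalIdeal 𝒪)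
    {N : ℕ} [NeZero N] {S : Finset ℕ}
    {θ : CuspForm.heckeAlgebra N 2 (↑S : Set ℕ) →+* ResidueField 𝒪}
    {T : Type} [CommRing T] [IsLocalRing T] [IsNoetherianRing T]
    [IsAdicComplete (maximalIdeal T) T] [Algebra 𝒪 T] [IsLocalHom (algebraMap 𝒪 T)]
    [Module.Finite 𝒪 T] [Module.Free 𝒪 T]
    (H : CuspForm.HeckeGaloisRepDatum N (↑S : Set ℕ) 𝒪 θ T)
    (q : ℕ) (hq : q.Prime) (hqp : q ≠ p) (hqN : q ∣ N) (hq2 : ¬ q ^ 2 ∣ N)
    (c : ℕ) (hc0 : c ≠ 0) (hc : Nat.Coprime q c) (hadm : ∀ k : ℕ, c ∣ k → AdmLevel k) :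
    H.ρ.IsUnipotentOnInertiaAt q := by
  have hM0 : c * N ≠ 0 := Nat.mul_ne_zero hc0 (NeZero.ne N)
  haveI : NeZero (c * N) := ⟨hM0⟩
  obtain ⟨h1, h2, h3⟩ := aux_level hq hqN hq2 hc
  have hM : AdmLevel (c * N) := hadm _ (Dvd.intro N rfl)
  obtain ⟨𝒜⟩ := hAN (c * N) p hp hM
  refine S34_of_core hcheb hp hp𝒪 H q hq hqp
    (coreS hp 𝒜 (esElem_of_keyLemma hM 𝒜 hK) (inElem_of_keyLemma hM 𝒜 hK) (hHK _ hM))
    (Adic.levelRes N (c * N) (Dvd.intro_left c rfl)) ?_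
  intro P hP τ hτ
  refine actS_unip_of_elem 𝒜 τ fun u hu => ?_
  obtain ⟨m, hm⟩ := exists_isKum_of_mem_VV 𝒜 hu
  have hd : ¬ q ∣ p ^ m := fun h' =>
    hqp ((Nat.prime_dvd_prime_iff_eq hq hp).1 (hq.dvd_of_dvd_pow h'))
  have h4 := hGA (c * N) (p ^ m) q hM0 hq h1 h2 (hadm _ h3) hd P hP τ hτ _ hm
  rw [mem_FLU]
  simpa [div_eq_mul_inv] using h4

/-- **S34 from the block contracts** (statement of S34 verbatim). -/
theorem S34_of_contracts (hcheb : WeakChebotarev) (hK : KeyLemmaStatement) (hAN : ANContract)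
    (hHK : HKContract) (hGA : GoalA)
    {𝒪 : Type} [CommRing 𝒪] [IsDomain 𝒪] [IsDiscreteValuationRing 𝒪]
    [IsAdicComplete (maximalIdeal 𝒪) 𝒪] [Finite (ResidueField 𝒪)] [CharZero 𝒪]
    {p : ℕ} (hp : p.Prime) (hp𝒪 : (p : 𝒪) ∈ maximalIdeal 𝒪)
    {N : ℕ} [NeZero N] {S : Finset ℕ} (_hpS : p ∈ S) (_hNS : ∀ q : ℕ, q.Prime → q ∣ N → q ∈ S)
    {θ : CuspForm.heckeAlgebra N 2 (↑S : Set ℕ) →+* ResidueField 𝒪}
    {T : Type} [CommRing T] [IsLocalRing T] [IsNoetherianRing T]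
    [IsAdicComplete (maximalIdeal T) T] [Algebra 𝒪 T] [IsLocalHom (algebraMap 𝒪 T)]
    [Module.Finite 𝒪 T] [Module.Free 𝒪 T]
    (H : CuspForm.HeckeGaloisRepDatum N (↑S : Set ℕ) 𝒪 θ T)
    (q : ℕ) (hq : q.Prime) (hqp : q ≠ p) (hqN : q ∣ N) (hq2 : ¬ q ^ 2 ∣ N) :
    H.ρ.IsUnipotentOnInertiaAt q := by
  by_cases h2 : q = 2
  · refine S34_of_contracts_aux hcheb hK hAN hHK hGA hp hp𝒪 H q hq hqp hqN hq2 9 (by norm_num) ?_
      (fun k hk => Or.inr hk)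
    rw [h2]; norm_num
  · refine S34_of_contracts_aux hcheb hK hAN hHK hGA hp hp𝒪 H q hq hqp hqN hq2 4 (by norm_num) ?_
      (fun k hk => Or.inl hk)
    have : Nat.Coprime q 2 := (Nat.coprime_primes hq Nat.prime_two).2 h2
    exact Nat.Coprime.pow_right 2 this

end Fermat.Agent.TOR.RT
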