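import Fermat.Agent.TOR.GoalAFinal
import Fermat.Agent.TOR.GBB.Main

/-!
# TOR : the geometric contract `GoalBStatement` (unconditional).
-/

set_option autoImplicit false

open ModularCurve AlgebraicCurve

noncomputable section

namespace Fermat.Agent.TOR

open Fermat.Agent.GAL Fermat.Agent.GAL.KLC

/-- **GOAL B.** -/
theorem goalBStatement : GoalBStatement := by
  intro M q _ hM0 hq hqM hq2 hAdm
  obtain ⟨h1, h2, h3⟩ := level_split hM0 hqM hq2
  have : NeZero (M / q) := ⟨h1⟩
  have h := GBB.goalB_of_KL2C hq h2 (kl2C (M / q) q hAdm hq h2)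
  rw [h3] at h
  exact h

end Fermat.Agent.TOR
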