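import Mathlib
import Fermat.Agent.TOR.Final

/-!
# TOR / FinalAdapt : the goals `GoalAStatement`, `GoalBStatement` from their forms at level `M₁ * q`
-/

set_option autoImplicit false

open Fermat.Agent.GAL

namespace Fermat.Agent.TOR

theorem tor_level_split {M q : ℕ} (hM : M ≠ 0) (hqM : q ∣ M) (hq2 : ¬ q ^ 2 ∣ M) :
    M / q ≠ 0 ∧ ¬ q ∣ M / q ∧ M / q * q = M := by
  obtain ⟨k, rfl⟩ := hqM
  have hq0 : 0 < q := Nat.pos_of_ne_zero (fun h => hM (by rw [h, zero_mul]))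
  rw [Nat.mul_div_cancel_left _ hq0]
  refine ⟨fun h => hM (by rw [h, mul_zero]), fun h => hq2 ?_, mul_comm _ _⟩
  rw [pow_two]
  exact Nat.mul_dvd_mul_left q h

theorem goalAStatement_of
    (h : ∀ (M₁ q : ℕ) [NeZero M₁] [NeZero q], q.Prime → ¬ q ∣ M₁ → AdmLevel M₁ →
      GoalAt (M₁ * q) q) : GoalAStatement := by
  intro M q hM hq hqM hq2 hadm
  obtain ⟨h0, h1, h2⟩ := tor_level_split hM hqM hq2
  have : NeZero (M / q) := ⟨h0⟩
  have : NeZero q := ⟨hq.ne_zero⟩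
  have := h (M / q) q hq h1 hadm
  rwa [h2] at this

theorem goalBStatement_of
    (h : ∀ (M₁ q : ℕ) [NeZero M₁] [NeZero q], q.Prime → ¬ q ∣ M₁ → AdmLevel M₁ →
      GoalB (M₁ * q) q) : GoalBStatement := by
  intro M q _ hM hq hqM hq2 hadm
  obtain ⟨h0, h1, h2⟩ := tor_level_split hM hqM hq2
  have : NeZero (M / q) := ⟨h0⟩
  have := h (M / q) q hq h1 hadm
  rwa [h2] at this

end Fermat.Agent.TOR
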